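/-
PROGRAMME I (S33, p-new half), block B3 (expansion layer), node §4a, part 1 (helper20):
ONE LEVEL OF THE TUBE OF A NODE, prepared for the abstract expansion theorem
`Fermat.Agent.FF3.Expand.ExpData` (helper5).

`L : S0.AnnulusLevels A T ι`, `i : ι`, `R = (L.level i).R` (noetherian normal local,
`𝔪 = (ϖ, u, v)`, `u v = thick ε₀`).  This file is about `R` alone (no completion, no target):

* `levelConst L i = A ∩ K'_i` (a subring of `K`), `constHom : levelConst L i →+* R`, `unifW`,
  `thickW`;
* the coordinates `uR`, `wR = v ε₀⁻¹` with `uR * wR = thick`, `coord = ![uR, wR]`;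
* `gens = {ϖ} ∪ range coord` generates the maximal ideal: `mem_span_gens_iff`;
* `LevelFullRes` (the residue field of `A ∩ K'_i` is that of `A`) gives
  `exists_const_sub_mem : R = (A ∩ K'_i) + 𝔪`;
* the evaluation homomorphisms `evK hP : R →+* K` at the places of the tube, with values in `A`,
  non-units going to the maximal ideal of `A`; `evK_uR_mul_evK_wR`;
* `eq_zero_of_evK_eq_zero` : a function of the level vanishing at infinitely many places of the
  tube is zero.
-/
import Mathlib
import Fermat.Agent.BR.S0.AnnulusDescent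

set_option autoImplicit false

noncomputable section

namespace Fermat.Agent.FF3.ExpandBR

open AlgebraicCurve IsLocalRing Fermat.Agent.Red Fermat.Agent.BR.Centre Fermat.Agent.BR.S0

variable {K F : Type*} [Field K] [Field F] [Algebra K F]
  {A : ValuationSubring K} {T : Set (Place K F)} {ι : Type*}

variable (L : AnnulusLevels A T ι) (i : ι)

/-! ### the constants -/

/-- The constants `W₀ = A ∩ K'` of the level. -/
def levelConst : Subring K := A.toSubring ⊓ (L.level i).K'.toSubring

theorem mem_levelConst {c : K} : c ∈ levelConst L i ↔ c ∈ A ∧ c ∈ (L.level i).K' :=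
  Subring.mem_inf

/-- The inclusion of the constants in the level ring. -/
def constHom : levelConst L i →+* (L.level i).R :=
  ((algebraMap K F).comp (levelConst L i).subtype).codRestrict (L.level i).R
    (fun c => (L.level i).const_mem c ((mem_levelConst L i).mp c.2).2 ((mem_levelConst L i).mp c.2).1)

@[simp] theorem coe_constHom (c : levelConst L i) :
    ((constHom L i c : (L.level i).R) : F) = algebraMap K F (c : K) := rfl

/-- The uniformizer as a constant. -/
def unifW : levelConst L i :=
  ⟨(L.level i).ϖ, (mem_levelConst L i).mpr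
    ⟨(A.valuation_le_one_iff _).mp (L.level i).unif_lt.le, (L.level i).unif_mem⟩⟩

/-- The thickness as a constant. -/
def thickW : levelConst L i :=
  ⟨L.thick, (mem_levelConst L i).mpr
    ⟨(A.valuation_le_one_iff _).mp L.thick_lt.le, (L.level i).thick_mem⟩⟩

@[simp] theorem coe_unifW : ((unifW L i : levelConst L i) : K) = (L.level i).ϖ := rfl

@[simp] theorem coe_thickW : ((thickW L i : levelConst L i) : K) = L.thick := rfl

theorem constHom_unifW : constHom L i (unifW L i) = (L.level i).πR := rfl

/-! ### the coordinates -/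

/-- The first coordinate `u`. -/
def uR : (L.level i).R := (L.level i).uR

/-- The normalised second coordinate `w = v ε₀⁻¹` (`u w = thick`). -/
def wR : (L.level i).R :=
  ⟨L.v * L.ε₀⁻¹, (L.level i).R.mul_mem (L.level i).v_mem (L.level i).ε₀_inv_mem⟩

/-- `ε₀` as an element of the level. -/
def εR : (L.level i).R := ⟨L.ε₀, (L.level i).ε₀_mem⟩

/-- `ε₀⁻¹` as an element of the level. -/
def εinvR : (L.level i).R := ⟨L.ε₀⁻¹, (L.level i).ε₀_inv_mem⟩

include i in
theorem v_ne_zero : L.v ≠ 0 := by
  intro h0
  apply (L.level i).v_notMem_p1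
  have : (⟨L.v, (L.level i).v_mem⟩ : (L.level i).R) = 0 := Subtype.ext h0
  rw [this]
  exact (L.level i).p1.zero_mem

include i in
theorem ε₀_ne_zero : L.ε₀ ≠ 0 := by
  intro h0
  have h1 := L.uv
  rw [h0, smul_zero] at h1
  exact mul_ne_zero L.u_ne_zero (v_ne_zero L i) h1

theorem εR_mul_εinvR : εR L i * εinvR L i = 1 :=
  Subtype.ext (mul_inv_cancel₀ (ε₀_ne_zero L i))

theorem wR_eq : wR L i = (L.level i).vR * εinvR L i := rfl

theorem vR_eq : (L.level i).vR = wR L i * εR L i := by
  apply Subtype.ext
  show L.v = L.v * L.ε₀⁻¹ * L.ε₀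
  rw [mul_assoc, inv_mul_cancel₀ (ε₀_ne_zero L i), mul_one]

theorem uR_mul_wR : uR L i * wR L i = constHom L i (thickW L i) := by
  apply Subtype.ext
  show L.u * (L.v * L.ε₀⁻¹) = algebraMap K F L.thick
  rw [← mul_assoc, L.uv, Algebra.smul_def, mul_assoc, mul_inv_cancel₀ (ε₀_ne_zero L i), mul_one]

/-- The two coordinates. -/
def coord : Fin 2 → (L.level i).R := ![uR L i, wR L i]

@[simp] theorem coord_zero : coord L i 0 = uR L i := rfl

@[simp] theorem coord_one : coord L i 1 = wR L i := rfl

theorem range_coord : Set.range (coord L i) = {uR L i, wR L i} := by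
  ext y
  constructor
  · rintro ⟨s, rfl⟩
    fin_cases s
    · exact Or.inl rfl
    · exact Or.inr rfl
  · rintro (rfl | rfl)
    · exact ⟨0, rfl⟩
    · exact ⟨1, rfl⟩

/-- The generators `ϖ, u, w` of the maximal ideal. -/
def gens : Set (L.level i).R := insert (constHom L i (unifW L i)) (Set.range (coord L i))

theorem span_gens :
    Ideal.span (gens L i) = Ideal.span {(L.level i).πR, (L.level i).uR, (L.level i).vR} := by
  unfold gens
  rw [range_coord, constHom_unifW]
  apply le_antisymm
  · rw [Ideal.span_le]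
    rintro y (rfl | rfl | rfl)
    · exact Ideal.subset_span (Or.inl rfl)
    · exact Ideal.subset_span (Or.inr (Or.inl rfl))
    · rw [wR_eq]
      exact Ideal.mul_mem_right _ _ (Ideal.subset_span (Or.inr (Or.inr rfl)))
  · rw [Ideal.span_le]
    rintro y (rfl | rfl | rfl)
    · exact Ideal.subset_span (Or.inl rfl)
    · exact Ideal.subset_span (Or.inr (Or.inl rfl))
    · rw [vR_eq]
      exact Ideal.mul_mem_right _ _ (Ideal.subset_span (Or.inr (Or.inr rfl)))

theorem not_isUnit_wR : ¬ IsUnit (wR L i) := by
  intro h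
  apply (L.level i).not_isUnit_vR
  rw [vR_eq]
  exact h.mul (IsUnit.of_mul_eq_one _ (εR_mul_εinvR L i))

/-- **`(ϖ, u, w)` is the set of non-units of the level ring.** -/
theorem mem_span_gens_iff (y : (L.level i).R) : y ∈ Ideal.span (gens L i) ↔ ¬ IsUnit y := by
  haveI := (L.level i).isLocal
  constructor
  · intro hy
    have hle : Ideal.span (gens L i) ≤ maximalIdeal (L.level i).R := by
      rw [span_gens, Ideal.span_le]
      rintro z (rfl | rfl | rfl)
      · exact (mem_maximalIdeal _).mpr (L.level i).not_isUnit_πR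
      · exact (mem_maximalIdeal _).mpr (L.level i).not_isUnit_uR
      · exact (mem_maximalIdeal _).mpr (L.level i).not_isUnit_vR
    exact (mem_maximalIdeal _).mp (hle hy)
  · intro hy
    rw [span_gens]
    exact (L.level i).nonunit_mem y hy

/-! ### evaluation at the places of the tube -/

section Eval

variable {L i} {P : Place K F} (hP : P ∈ T)

/-- The evaluation at a place of the tube, as a ring homomorphism `R →+* K`. -/
def evK : (L.level i).R →+* K where
  toFun y := evalAt P (y : F)
  map_one' := evalAt_eq_of_isValueAt (isValueAt_one P)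
  map_mul' x y := (L.level i).evalAt_mul hP x.2 y.2
  map_zero' := evalAt_eq_of_isValueAt (isValueAt_zero P)
  map_add' x y := evalAt_eq_of_isValueAt
    (((L.level i).isValueAt_evalAt hP x.2).add ((L.level i).isValueAt_evalAt hP y.2))

theorem evK_apply (y : (L.level i).R) : evK hP y = evalAt P (y : F) := rfl

theorem evK_mem (y : (L.level i).R) : evK hP y ∈ A := (L.level i).evalAt_memA hP y.2

theorem evK_constHom (c : levelConst L i) : evK hP (constHom L i c) = (c : K) :=
  evalAt_eq_of_isValueAt (isValueAt_algebraMap P (c : K))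

theorem evK_algebraMap {c : K} (hc : algebraMap K F c ∈ (L.level i).R) :
    evK hP ⟨algebraMap K F c, hc⟩ = c :=
  evalAt_eq_of_isValueAt (isValueAt_algebraMap P c)

theorem valuation_evK_lt_one {y : (L.level i).R} (hy : ¬ IsUnit y) :
    A.valuation (evK hP y) < 1 := (L.level i).valuation_evalAt_lt_one hP hy

theorem evK_uR_mul_evK_wR : evK hP (uR L i) * evK hP (wR L i) = L.thick := by
  rw [← map_mul, uR_mul_wR, evK_constHom, coe_thickW]

theorem evK_uR : evK hP (uR L i) = evalAt P L.u := rfl

theorem valuation_thick_lt_evK_uR : A.valuation L.thick < A.valuation (evK hP (uR L i)) := by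
  obtain ⟨c, hc, h1, -⟩ := L.val_mem P hP
  rw [evK_uR, evalAt_eq_of_isValueAt hc]
  exact h1

theorem evK_uR_ne_zero : evK hP (uR L i) ≠ 0 := by
  intro h0
  have h := valuation_thick_lt_evK_uR (L := L) (i := i) hP
  rw [h0, map_zero] at h
  exact not_lt_zero' h

include hP in
/-- A constant of the level ring of absolute value `< 1` is a non-unit. -/
theorem not_isUnit_algebraMap {c : K} (hc : algebraMap K F c ∈ (L.level i).R)
    (hlt : A.valuation c < 1) : ¬ IsUnit (⟨algebraMap K F c, hc⟩ : (L.level i).R) := by
  intro hu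
  obtain ⟨z, hz⟩ := hu.exists_right_inv
  have h1 : evK hP (⟨algebraMap K F c, hc⟩ * z) = 1 := by rw [hz, map_one]
  rw [map_mul, evK_algebraMap] at h1
  have h2 : A.valuation (c * evK hP z) = 1 := by rw [h1, map_one]
  rw [map_mul] at h2
  have h3 : A.valuation (evK hP z) ≤ 1 := (A.valuation_le_one_iff _).mpr (evK_mem hP z)
  have h4 : A.valuation c * A.valuation (evK hP z) < 1 := by
    calc A.valuation c * A.valuation (evK hP z) ≤ A.valuation c * 1 := by gcongr
      _ = A.valuation c := mul_one _
      _ < 1 := hlt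
  rw [h2] at h4
  exact lt_irrefl _ h4

end Eval

/-! ### `R = (A ∩ K') + 𝔪` -/

/-- The residue field of `A ∩ K'` is the residue field of `A` (the hypothesis `hfull` of
`Circle.Cover.approxAt_of_annulusLevels`). -/
def LevelFullRes : Prop :=
  ∀ (c : K) (hc : c ∈ A), ∃ (c' : K) (hc' : c' ∈ A),
    c' ∈ (L.level i).K' ∧ residue A ⟨c', hc'⟩ = residue A ⟨c, hc⟩

variable {L i}

/-- **`R = (A ∩ K') + 𝔪`.** -/
theorem exists_const_sub_mem (hfull : LevelFullRes L i) (hT : T.Nonempty) (y : (L.level i).R) :
    ∃ a : levelConst L i, y - constHom L i a ∈ Ideal.span (gens L i) := by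
  haveI := (L.level i).isLocal
  obtain ⟨P, hP⟩ := hT
  obtain ⟨a, haR, hnu⟩ := (L.level i).residue y
  obtain ⟨a', ha'A, ha'K, hres⟩ := hfull (a : K) a.2
  have ha'R : algebraMap K F a' ∈ (L.level i).R := (L.level i).const_mem a' ha'K ha'A
  refine ⟨⟨a', (mem_levelConst L i).mpr ⟨ha'A, ha'K⟩⟩, ?_⟩
  rw [mem_span_gens_iff]
  -- the difference of the two constants is a non-unit
  have hd : A.valuation ((a : K) - a') < 1 := by
    have h0 : residue A (⟨(a : K), a.2⟩ - ⟨a', ha'A⟩) = 0 := by
      rw [map_sub, hres, sub_self]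
    rw [residue_eq_zero_iff] at h0
    exact (A.valuation_lt_one_iff _).mp h0
  have hdR : algebraMap K F ((a : K) - a') ∈ (L.level i).R := by
    rw [map_sub]
    exact (L.level i).R.sub_mem haR ha'R
  have hnu2 := not_isUnit_algebraMap (L := L) (i := i) hP hdR hd
  have e : y - constHom L i ⟨a', (mem_levelConst L i).mpr ⟨ha'A, ha'K⟩⟩ =
      (y - ⟨algebraMap K F (a : K), haR⟩) + ⟨algebraMap K F ((a : K) - a'), hdR⟩ := by
    apply Subtype.ext
    show (y : F) - algebraMap K F a' =
      ((y : F) - algebraMap K F (a : K)) + algebraMap K F ((a : K) - a')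
    rw [map_sub]
    ring
  rw [e]
  exact fun h => (nonunits_add hnu hnu2) h

/-! ### separation by the places of the tube -/

/-- A function of the level vanishing at infinitely many places of the tube is zero. -/
theorem eq_zero_of_evK_eq_zero {S : Set (Place K F)} (hS : S ⊆ T) (hinf : S.Infinite)
    {y : (L.level i).R} (hy : ∀ P (hP : P ∈ S), evK (L := L) (i := i) (hS hP) y = 0) : y = 0 := by
  by_contra hy0
  have hyF : (y : F) ≠ 0 := fun h => hy0 (Subtype.ext h)
  have hfin := L.finite_div (y : F) hyF
  apply hinf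
  refine hfin.subset fun P hP => ?_
  have h0 : evalAt P (y : F) = 0 := hy P hP
  exact ((L.level i).ord_pos_of_evalAt_eq_zero (hS hP) y.2 hyF h0).ne'

end Fermat.Agent.FF3.ExpandBR
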