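/-
PROGRAMME I (S33, p-new half), block B3 (expansion layer), node §4a, part 2 (helper20):
THE EXPANSION AT A NODE of the functions of one level, as an instance of the abstract expansion
theorem `Fermat.Agent.FF3.Expand.ExpData` (helper5).

Parameters which are NOT on main and enter abstractly:

* `(Ω, j)` : a normed field with ultrametric norm and `j : K →+* Ω` with `‖j c‖ ≤ 1 ↔ c ∈ A`
  (in the application: the completion of `(K, A)`; nothing else about `Ω` is used);
* `Tg : NodeTargetEv W₀ ϖ π Ω j₀ B` : what is consumed of the target ring `B` (in the application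
  the formal node ring `NodeRing W π = W[[X,Y]]/(XY - π)` over the completion `W` of
  `W₀ = A ∩ K'`): constants, coordinates with `X * Y = π`, the evaluations at the points of the
  open annulus `‖π‖ < ‖a‖ < 1` of `Ω`, completeness for `(ϖ, X, Y)` and the identity theorem;
* `hfull : LevelFullRes L i` and `hcol` (the value group is dense near `1`).

Output: `nodeExpData`, `nodeExpand : (L.level i).R →+* B` with `nodeExpand_u`, `nodeExpand_w`,
`nodeExpand_const`, `evalAt_nodeExpand`, `nodeExpand_eq`, `nodeExpand_unique`,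
`nodeExpand_injective`, `nodeExpand_mem_pow`.
-/
import Mathlib
import Fermat.Agent.FF3.ExpandBR.Level
import Fermat.Agent.FF3.Expand.Abstract
import Fermat.Agent.FF3.Expand.NodeTarget

set_option autoImplicit false

noncomputable section

namespace Fermat.Agent.FF3.ExpandBR

open AlgebraicCurve IsLocalRing Fermat.Agent.Red Fermat.Agent.BR.Centre Fermat.Agent.BR.S0

/-! ### norms and the valuation -/

section Norm

variable {K : Type*} [Field K] {A : ValuationSubring K} {Ω : Type*} [NormedField Ω]
  (j : K →+* Ω) (hj : ∀ c : K, ‖j c‖ ≤ 1 ↔ c ∈ A)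

include hj in
theorem one_le_norm_iff {c : K} (hc : c ≠ 0) : 1 ≤ ‖j c‖ ↔ 1 ≤ A.valuation c := by
  have hjc : j c ≠ 0 := (map_ne_zero j).mpr hc
  have h1 : 1 ≤ ‖j c‖ ↔ ‖j c⁻¹‖ ≤ 1 := by
    rw [map_inv₀, norm_inv, inv_le_one₀ (norm_pos_iff.mpr hjc)]
  have h2 : c⁻¹ ∈ A ↔ 1 ≤ A.valuation c := by
    rw [← A.valuation_le_one_iff, map_inv₀,
      inv_le_one₀ (zero_lt_iff.mpr ((Valuation.ne_zero_iff _).mpr hc))]
  rw [h1, hj, h2]

include hj in
theorem norm_lt_one_iff (c : K) : ‖j c‖ < 1 ↔ A.valuation c < 1 := by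
  rcases eq_or_ne c 0 with rfl | hc
  · simp
  · rw [← not_le, ← not_le, one_le_norm_iff j hj hc]

include hj in
theorem norm_lt_norm_iff (a : K) {b : K} (hb : b ≠ 0) :
    ‖j a‖ < ‖j b‖ ↔ A.valuation a < A.valuation b := by
  have hjb : j b ≠ 0 := (map_ne_zero j).mpr hb
  have h1 : ‖j a‖ < ‖j b‖ ↔ ‖j (a / b)‖ < 1 := by
    rw [map_div₀, norm_div, div_lt_one (norm_pos_iff.mpr hjb)]
  have h2 : A.valuation (a / b) < 1 ↔ A.valuation a < A.valuation b := by
    rw [map_div₀, div_lt_one₀ (zero_lt_iff.mpr ((Valuation.ne_zero_iff _).mpr hb))]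
  rw [h1, norm_lt_one_iff j hj, h2]

end Norm

theorem range_vecPair {α : Type*} (a b : α) : Set.range ![a, b] = {a, b} := by
  ext y
  constructor
  · rintro ⟨s, rfl⟩
    fin_cases s
    · exact Or.inl rfl
    · exact Or.inr rfl
  · rintro (rfl | rfl)
    · exact ⟨0, rfl⟩
    · exact ⟨1, rfl⟩

/-! ### what is consumed of the target ring

`Expand.NodeTargetEv W₀ ϖ π Ω j₀ B` (helper5, `FF3/Expand/NodeTarget`): a commutative ring `B` with
constants `c : W₀ →+* B`, coordinates `X`, `Y` with `X * Y = c π`, evaluations at the points of the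
open annulus `‖π‖ < ‖a‖ < 1` of `Ω`, complete for `(ϖ, X, Y)` (pointwise form), with the two-ended
identity theorem.  Instance: `FF3/ExpandBR/Instance` (the integral node ring `NodeInt π` over the
completed constants of the level). -/

/-! ### the expansion data of one level -/

section Frame

variable {K F : Type*} [Field K] [Field F] [Algebra K F]
  {A : ValuationSubring K} {T : Set (Place K F)} {ι : Type*}
  (L : AnnulusLevels A T ι) (i : ι)
  {Ω : Type*} [NormedField Ω] (j : K →+* Ω) (hj : ∀ c : K, ‖j c‖ ≤ 1 ↔ c ∈ A)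

/-- The restriction of `j` to the constants of the level. -/
def constΩ : levelConst L i →+* Ω := j.comp (levelConst L i).subtype

@[simp] theorem constΩ_apply (c : levelConst L i) : constΩ L i j c = j (c : K) := rfl

/-- The evaluation at a place of the tube, with values in `Ω`. -/
def evΩ (P : T) : (L.level i).R →+* Ω := j.comp (evK (L := L) (i := i) P.2)

@[simp] theorem evΩ_apply (P : T) (y : (L.level i).R) :
    evΩ L i j P y = j (evK (L := L) (i := i) P.2 y) := rfl

/-- The parameter `u(P)` of a place of the tube. -/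
def pointVal (P : T) : Ω := evΩ L i j P (uR L i)

include hj in
theorem norm_evΩ_le (P : T) (y : (L.level i).R) : ‖evΩ L i j P y‖ ≤ 1 :=
  (hj _).mpr (evK_mem P.2 y)

include hj in
theorem norm_evΩ_lt_one (P : T) {y : (L.level i).R} (hy : ¬ IsUnit y) : ‖evΩ L i j P y‖ < 1 :=
  (norm_lt_one_iff j hj _).mpr (valuation_evK_lt_one P.2 hy)

include hj in
theorem norm_thick_lt_pointVal (P : T) : ‖constΩ L i j (thickW L i)‖ < ‖pointVal L i j P‖ := by
  show ‖j L.thick‖ < ‖j (evK (L := L) (i := i) P.2 (uR L i))‖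
  rw [norm_lt_norm_iff j hj _ (evK_uR_ne_zero P.2)]
  exact valuation_thick_lt_evK_uR P.2

include hj in
theorem norm_pointVal_lt_one (P : T) : ‖pointVal L i j P‖ < 1 :=
  norm_evΩ_lt_one L i j hj P (L.level i).not_isUnit_uR

theorem evΩ_wR (P : T) :
    evΩ L i j P (wR L i) = constΩ L i j (thickW L i) / pointVal L i j P := by
  have h : evΩ L i j P (uR L i) * evΩ L i j P (wR L i) = constΩ L i j (thickW L i) := by
    rw [← map_mul, uR_mul_wR]
    show j (evK (L := L) (i := i) P.2 (constHom L i (thickW L i))) = _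
    rw [evK_constHom]
    rfl
  have h0 : pointVal L i j P ≠ 0 := (map_ne_zero j).mpr (evK_uR_ne_zero P.2)
  rw [eq_div_iff h0, mul_comm]
  exact h

/-- The radius of a place of the tube. -/
def radΩ (P : T) : ℝ :=
  max ‖evΩ L i j P (constHom L i (unifW L i))‖ (max ‖evΩ L i j P (uR L i)‖ ‖evΩ L i j P (wR L i)‖)

include hj in
theorem radΩ_lt_one (P : T) : radΩ L i j P < 1 := by
  refine max_lt ?_ (max_lt ?_ ?_)
  · rw [constHom_unifW]
    exact norm_evΩ_lt_one L i j hj P (L.level i).not_isUnit_πR
  · exact norm_evΩ_lt_one L i j hj P (L.level i).not_isUnit_uR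
  · exact norm_evΩ_lt_one L i j hj P (not_isUnit_wR L i)

/-! ### collars -/

/-- The value group is dense near `1`. -/
def DenseNearOne : Prop := ∀ ρ : ℝ, ρ < 1 → ∃ c : K, ρ < ‖j c‖ ∧ ‖j c‖ < 1

variable {L i j}

include hj in
/-- the outer collar: places of the tube with `‖u(P)‖` close to `1` -/
theorem exists_outer (hcol : DenseNearOne j) (ρ : ℝ) (hρ : ρ < 1) :
    ∃ P : T, ρ < ‖pointVal L i j P‖ := by
  have hth : ‖j L.thick‖ < 1 := (norm_lt_one_iff j hj _).mpr L.thick_lt
  obtain ⟨c, hc1, hc2⟩ := hcol (max ρ ‖j L.thick‖) (max_lt hρ hth)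
  have hc0 : c ≠ 0 := by
    intro h0
    rw [h0, map_zero, norm_zero] at hc1
    exact not_lt.mpr (norm_nonneg _) ((le_max_right _ _).trans_lt hc1)
  have h1 : A.valuation L.thick < A.valuation c :=
    (norm_lt_norm_iff j hj _ hc0).mp ((le_max_right _ _).trans_lt hc1)
  have h2 : A.valuation c < 1 := (norm_lt_one_iff j hj _).mp hc2
  obtain ⟨P, hP, hPc⟩ := L.exists_place c h1 h2
  refine ⟨⟨P, hP⟩, ?_⟩
  show ρ < ‖j (evalAt P L.u)‖
  rw [evalAt_eq_of_isValueAt hPc]
  exact (le_max_left _ _).trans_lt hc1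

include hj in
/-- the inner collar: places of the tube with `‖thick / u(P)‖` close to `1` -/
theorem exists_inner (hcol : DenseNearOne j) (ρ : ℝ) (hρ : ρ < 1) :
    ∃ P : T, ρ < ‖constΩ L i j (thickW L i)‖ / ‖pointVal L i j P‖ := by
  have hth : ‖j L.thick‖ < 1 := (norm_lt_one_iff j hj _).mpr L.thick_lt
  obtain ⟨c', hc1, hc2⟩ := hcol (max ρ ‖j L.thick‖) (max_lt hρ hth)
  have hc'0 : c' ≠ 0 := by
    intro h0
    rw [h0, map_zero, norm_zero] at hc1
    exact not_lt.mpr (norm_nonneg _) ((le_max_right _ _).trans_lt hc1)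
  have hjc' : 0 < ‖j c'‖ := norm_pos_iff.mpr ((map_ne_zero j).mpr hc'0)
  have hjt : 0 < ‖j L.thick‖ := norm_pos_iff.mpr ((map_ne_zero j).mpr L.thick_ne)
  set c : K := L.thick / c' with hc
  have hc0 : c ≠ 0 := div_ne_zero L.thick_ne hc'0
  have hnc : ‖j c‖ = ‖j L.thick‖ / ‖j c'‖ := by rw [hc, map_div₀, norm_div]
  have h1' : ‖j L.thick‖ < ‖j c‖ := by
    rw [hnc, lt_div_iff₀ hjc']
    calc ‖j L.thick‖ * ‖j c'‖ < ‖j L.thick‖ * 1 := by gcongr
      _ = ‖j L.thick‖ := mul_one _
  have h2' : ‖j c‖ < 1 := by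
    rw [hnc, div_lt_one hjc']
    exact (le_max_right _ _).trans_lt hc1
  have h1 : A.valuation L.thick < A.valuation c := (norm_lt_norm_iff j hj _ hc0).mp h1'
  have h2 : A.valuation c < 1 := (norm_lt_one_iff j hj _).mp h2'
  obtain ⟨P, hP, hPc⟩ := L.exists_place c h1 h2
  refine ⟨⟨P, hP⟩, ?_⟩
  show ρ < ‖j L.thick‖ / ‖j (evalAt P L.u)‖
  have e : ‖j L.thick‖ / ‖j c‖ = ‖j c'‖ := by
    rw [hnc]
    field_simp
  rw [evalAt_eq_of_isValueAt hPc, e]
  exact (le_max_left _ _).trans_lt hc1

include hj in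
/-- the tube is infinite -/
theorem tube_infinite (L : AnnulusLevels A T ι) (i : ι) (hcol : DenseNearOne j) :
    T.Infinite := by
  intro hfin
  haveI : Fintype T := hfin.fintype
  rcases isEmpty_or_nonempty T with hT | hT
  · obtain ⟨P, -⟩ := exists_outer (L := L) (i := i) hj hcol 0 zero_lt_one
    exact hT.false P
  · obtain ⟨P₀, -, hmax⟩ := Finset.exists_max_image (Finset.univ : Finset T)
      (fun P => ‖pointVal L i j P‖) ⟨hT.some, Finset.mem_univ _⟩
    obtain ⟨P, hP⟩ := exists_outer (L := L) (i := i) hj hcol _ (norm_pointVal_lt_one L i j hj P₀)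
    exact not_lt.mpr (hmax P (Finset.mem_univ _)) hP

/-! ### the data -/

variable {B : Type*} [CommRing B]
  (Tg : Expand.NodeTargetEv (levelConst L i) (unifW L i) (thickW L i) Ω (constΩ L i j) B)

variable (L i j)

/-- The evaluation of the target at the parameter of a place of the tube. -/
def evB (P : T) : B →+* Ω :=
  Tg.evalAt (pointVal L i j P) (norm_thick_lt_pointVal L i j hj P) (norm_pointVal_lt_one L i j hj P)

/-- **The expansion data of the level `i` at the node.** -/
def nodeExpData (hfull : LevelFullRes L i) (hcol : DenseNearOne j) :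
    Expand.ExpData (levelConst L i) (L.level i).R B Ω (Fin 2) T where
  ι := constHom L i
  c := Tg.c
  ϖ := unifW L i
  x := coord L i
  X := ![Tg.X, Tg.Y]
  ev := evΩ L i j
  evB := evB L i j hj Tg
  evB_c P a := by
    show Tg.evalAt _ _ _ (Tg.c a) = j (evK (L := L) (i := i) P.2 (constHom L i a))
    rw [Tg.evalAt_c, evK_constHom]
    rfl
  evB_X P s := by
    fin_cases s
    · exact Tg.evalAt_X _ _ _
    · show Tg.evalAt _ _ _ Tg.Y = evΩ L i j P (wR L i)
      rw [Tg.evalAt_Y, evΩ_wR]
  ev_le := norm_evΩ_le L i j hj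
  evB_le P b := Tg.evalAt_le _ _ _ b
  rad := radΩ L i j
  rad_lt := radΩ_lt_one L i j hj
  ev_unif_le P := le_max_left _ _
  ev_x_le P s := by
    fin_cases s
    · exact (le_max_left _ _).trans (le_max_right _ _)
    · exact (le_max_right _ _).trans (le_max_right _ _)
  hres y := exists_const_sub_mem hfull (tube_infinite hj L i hcol).nonempty y
  complete f hf := by
    rw [range_vecPair] at hf
    obtain ⟨l, hl⟩ := Tg.complete f hf
    exact ⟨l, fun P => hl _ _ _⟩
  hsep b hb := by
    by_contra hb0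
    obtain ⟨ρ, hρ, h | h⟩ := Tg.ident b hb0
    · obtain ⟨P, hP⟩ := exists_outer (L := L) (i := i) hj hcol ρ hρ
      exact h _ _ _ hP (hb P)
    · obtain ⟨P, hP⟩ := exists_inner (L := L) (i := i) hj hcol ρ hρ
      exact h _ _ _ hP (hb P)

variable (hfull : LevelFullRes L i) (hcol : DenseNearOne j) [IsUltrametricDist Ω]

/-- **The expansion at the node** of the functions of the level `i`. -/
def nodeExpand : (L.level i).R →+* B := (nodeExpData L i j hj Tg hfull hcol).expand

theorem nodeExpand_u : nodeExpand L i j hj Tg hfull hcol (uR L i) = Tg.X :=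
  (nodeExpData L i j hj Tg hfull hcol).expand_coord 0

theorem nodeExpand_w : nodeExpand L i j hj Tg hfull hcol (wR L i) = Tg.Y :=
  (nodeExpData L i j hj Tg hfull hcol).expand_coord 1

theorem nodeExpand_const (a : levelConst L i) :
    nodeExpand L i j hj Tg hfull hcol (constHom L i a) = Tg.c a :=
  (nodeExpData L i j hj Tg hfull hcol).expand_const a

/-- the expansion has the same values as the function at the places of the tube -/
theorem evalAt_nodeExpand (P : T) (y : (L.level i).R) :
    evB L i j hj Tg P (nodeExpand L i j hj Tg hfull hcol y) = evΩ L i j P y :=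
  (nodeExpData L i j hj Tg hfull hcol).evB_expand P y

/-- the expansion is the only element of the target with the values of the function -/
theorem nodeExpand_eq {b : B} {y : (L.level i).R}
    (h : ∀ P : T, evB L i j hj Tg P b = evΩ L i j P y) :
    nodeExpand L i j hj Tg hfull hcol y = b :=
  (nodeExpData L i j hj Tg hfull hcol).expand_eq h

theorem nodeExpand_unique (e : (L.level i).R →+* B)
    (he : ∀ (P : T) (y : (L.level i).R), evB L i j hj Tg P (e y) = evΩ L i j P y) :
    e = nodeExpand L i j hj Tg hfull hcol :=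
  (nodeExpData L i j hj Tg hfull hcol).expand_unique e he

/-- the expansion maps `𝔪 ^ n` into `(ϖ, X, Y) ^ n` -/
theorem nodeExpand_mem_pow {n : ℕ} {y : (L.level i).R} (hy : y ∈ Ideal.span (gens L i) ^ n) :
    nodeExpand L i j hj Tg hfull hcol y ∈ Ideal.span {Tg.c (unifW L i), Tg.X, Tg.Y} ^ n := by
  have h := (nodeExpData L i j hj Tg hfull hcol).expand_mem_pow (n := n) (y := y) hy
  have e : (nodeExpData L i j hj Tg hfull hcol).mB =
      Ideal.span {Tg.c (unifW L i), Tg.X, Tg.Y} := by
    show Ideal.span (insert (Tg.c (unifW L i)) (Set.range ![Tg.X, Tg.Y])) = _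
    rw [range_vecPair]
  rw [e] at h
  exact h

/-- **the expansion is injective** -/
theorem nodeExpand_injective : Function.Injective (nodeExpand L i j hj Tg hfull hcol) := by
  refine (nodeExpData L i j hj Tg hfull hcol).expand_injective fun y hy => ?_
  refine eq_zero_of_evK_eq_zero (L := L) (i := i) (S := T) le_rfl
    (tube_infinite hj L i hcol) fun P hP => ?_
  have h := hy ⟨P, hP⟩
  exact (map_eq_zero j).mp h

end Frame

end Fermat.Agent.FF3.ExpandBR
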