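/-
PROGRAMME I (S33, p-new half), block B3 (expansion layer), node §4a, part 3 (helper20):
THE TWO VERTICAL PRIMES AND THE TWO GAUSS VALUATIONS (`gaussX`, `gaussY`, `taylorX`, `taylorY`).

One level `R = (L.level i).R` of the tube of a node.

* target-free: `p2_eq : p2 = (ϖ, v)`, `p1_eq : p1 = (ϖ, u)` (Nakayama, `Expand.prime_eq_of_le`);
* with the expansion: `comap_nodeExpand_Y : (ϖ, Y).comap nodeExpand = p2` and
  `comap_nodeExpand_X : (ϖ, X).comap nodeExpand = p1` as soon as `(ϖ, Y)`, `(ϖ, X)` are primes of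
  the target not containing `X`, resp. `Y`;
* with the branch data `Xb : BranchData S₀ e L` : `ker_red₁ : ker (Xb.red₁ i) = p2`,
  `ker_red₂ : ker (Xb.red₂ i) = p1`, `mem_nonunits_src_iff`, `mem_nonunits_tgt_iff`: the vertical
  primes are the traces of the maximal ideals of the Gauss valuation rings of the two components;
  hence `gaussX`, `gaussY`: `nodeExpand y ∈ (ϖ, Y) ↔ y ∈ 𝔪_{O (src e)}`,
  `nodeExpand y ∈ (ϖ, X) ↔ y ∈ 𝔪_{O (tgt e)}`;
* `taylorX`, `taylorY` : a function of the level which is a unit on the component is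
  `u ^ n * s` modulo the vertical prime, `s` a unit of the level, `n` = the order of its reduction
  at the branch, and its expansion is `X ^ n * (expansion of s)` modulo `(ϖ, Y)`.
-/
import Mathlib
import Fermat.Agent.BR.S0.AnnulusChartOfLevels
import Fermat.Agent.FF3.ExpandBR.Frame
import Fermat.Agent.FF3.Expand.Gauss

set_option autoImplicit false

noncomputable section

namespace Fermat.Agent.FF3.ExpandBR

open AlgebraicCurve IsLocalRing Fermat.Agent.Red Fermat.Agent.BR.Centre Fermat.Agent.BR.SS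
  Fermat.Agent.BR.Refine Fermat.Agent.BR.S0 Fermat.Agent.BR.S0.AnnulusChartOfLevels

/-! ### the vertical primes of a level -/

section Vert

variable {K F : Type*} [Field K] [Field F] [Algebra K F]
  {A : ValuationSubring K} {T : Set (Place K F)} {ι : Type*}
  (L : AnnulusLevels A T ι) (i : ι)

/-- `(ϖ, v)` -/
def vertId₂ : Ideal (L.level i).R := Ideal.span {(L.level i).πR, (L.level i).vR}

/-- `(ϖ, u)` -/
def vertId₁ : Ideal (L.level i).R := Ideal.span {(L.level i).πR, (L.level i).uR}

theorem uR_mem_maximalIdeal :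
    haveI := (L.level i).isLocal
    (L.level i).uR ∈ maximalIdeal (L.level i).R := by
  haveI := (L.level i).isLocal
  exact (mem_maximalIdeal _).mpr (L.level i).not_isUnit_uR

theorem vR_mem_maximalIdeal :
    haveI := (L.level i).isLocal
    (L.level i).vR ∈ maximalIdeal (L.level i).R := by
  haveI := (L.level i).isLocal
  exact (mem_maximalIdeal _).mpr (L.level i).not_isUnit_vR

theorem maximalIdeal_le_vertId₂_sup :
    haveI := (L.level i).isLocal
    maximalIdeal (L.level i).R ≤ vertId₂ L i ⊔ Ideal.span {(L.level i).uR} := by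
  haveI := (L.level i).isLocal
  intro y hy
  have h := (L.level i).nonunit_mem y ((mem_maximalIdeal _).mp hy)
  rw [Ideal.mem_span_insert] at h
  obtain ⟨a, z, hz, rfl⟩ := h
  rw [Ideal.mem_span_pair] at hz
  obtain ⟨b, c, rfl⟩ := hz
  have e : a * (L.level i).πR + (b * (L.level i).uR + c * (L.level i).vR) =
      (a * (L.level i).πR + c * (L.level i).vR) + b * (L.level i).uR := by ring
  rw [e]
  refine Submodule.add_mem_sup ?_ (Ideal.mul_mem_left _ _ (Ideal.subset_span rfl))
  exact add_mem (Ideal.mul_mem_left _ _ (Ideal.subset_span (Or.inl rfl)))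
    (Ideal.mul_mem_left _ _ (Ideal.subset_span (Or.inr rfl)))

theorem maximalIdeal_le_vertId₁_sup :
    haveI := (L.level i).isLocal
    maximalIdeal (L.level i).R ≤ vertId₁ L i ⊔ Ideal.span {(L.level i).vR} := by
  haveI := (L.level i).isLocal
  intro y hy
  have h := (L.level i).nonunit_mem y ((mem_maximalIdeal _).mp hy)
  rw [Ideal.mem_span_insert] at h
  obtain ⟨a, z, hz, rfl⟩ := h
  rw [Ideal.mem_span_pair] at hz
  obtain ⟨b, c, rfl⟩ := hz
  have e : a * (L.level i).πR + (b * (L.level i).uR + c * (L.level i).vR) =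
      (a * (L.level i).πR + b * (L.level i).uR) + c * (L.level i).vR := by ring
  rw [e]
  refine Submodule.add_mem_sup ?_ (Ideal.mul_mem_left _ _ (Ideal.subset_span rfl))
  exact add_mem (Ideal.mul_mem_left _ _ (Ideal.subset_span (Or.inl rfl)))
    (Ideal.mul_mem_left _ _ (Ideal.subset_span (Or.inr rfl)))

theorem wR_mem_maximalIdeal :
    haveI := (L.level i).isLocal
    wR L i ∈ maximalIdeal (L.level i).R := by
  haveI := (L.level i).isLocal
  exact (mem_maximalIdeal _).mpr (not_isUnit_wR L i)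

theorem maximalIdeal_le_vertId₁_sup_w :
    haveI := (L.level i).isLocal
    maximalIdeal (L.level i).R ≤ vertId₁ L i ⊔ Ideal.span {wR L i} := by
  haveI := (L.level i).isLocal
  refine (maximalIdeal_le_vertId₁_sup L i).trans (sup_le_sup_left ?_ _)
  rw [Ideal.span_singleton_le_iff_mem, vR_eq]
  exact Ideal.mul_mem_right _ _ (Ideal.subset_span rfl)

theorem vertId₂_le_p2 : vertId₂ L i ≤ (L.level i).p2 := by
  unfold vertId₂
  rw [Ideal.span_le]
  rintro y (rfl | rfl)
  · exact (L.level i).unif_mem_p2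
  · exact (L.level i).v_mem_p2

theorem vertId₁_le_p1 : vertId₁ L i ≤ (L.level i).p1 := by
  unfold vertId₁
  rw [Ideal.span_le]
  rintro y (rfl | rfl)
  · exact (L.level i).unif_mem_p1
  · exact (L.level i).u_mem_p1

/-- **`p2 = (ϖ, v)`.** -/
theorem p2_eq : (L.level i).p2 = vertId₂ L i := by
  haveI := (L.level i).isLocal
  haveI := (L.level i).noeth
  haveI := (L.level i).prime2
  exact Expand.prime_eq_of_le (vertId₂ L i) (L.level i).uR (uR_mem_maximalIdeal L i)
    (maximalIdeal_le_vertId₂_sup L i) (L.level i).p2 (vertId₂_le_p2 L i) (L.level i).u_notMem_p2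

/-- **`p1 = (ϖ, u)`.** -/
theorem p1_eq : (L.level i).p1 = vertId₁ L i := by
  haveI := (L.level i).isLocal
  haveI := (L.level i).noeth
  haveI := (L.level i).prime1
  exact Expand.prime_eq_of_le (vertId₁ L i) (L.level i).vR (vR_mem_maximalIdeal L i)
    (maximalIdeal_le_vertId₁_sup L i) (L.level i).p1 (vertId₁_le_p1 L i) (L.level i).v_notMem_p1

/-! ### the vertical primes of the target -/

variable {Ω : Type*} [NormedField Ω] [IsUltrametricDist Ω] (j : K →+* Ω)
  (hj : ∀ c : K, ‖j c‖ ≤ 1 ↔ c ∈ A) {B : Type*} [CommRing B]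
  (Tg : Expand.NodeTargetEv (levelConst L i) (unifW L i) (thickW L i) Ω (constΩ L i j) B)
  (hfull : LevelFullRes L i) (hcol : DenseNearOne j)

theorem nodeExpand_πR :
    nodeExpand L i j hj Tg hfull hcol (L.level i).πR = Tg.c (unifW L i) := by
  rw [← constHom_unifW, nodeExpand_const]

theorem nodeExpand_uR' : nodeExpand L i j hj Tg hfull hcol (L.level i).uR = Tg.X :=
  nodeExpand_u L i j hj Tg hfull hcol

theorem nodeExpand_vR :
    nodeExpand L i j hj Tg hfull hcol (L.level i).vR =
      Tg.Y * nodeExpand L i j hj Tg hfull hcol (εR L i) := by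
  rw [vR_eq, map_mul, nodeExpand_w]

theorem vertId₂_le_comap :
    vertId₂ L i ≤
      (Ideal.span {Tg.c (unifW L i), Tg.Y}).comap (nodeExpand L i j hj Tg hfull hcol) := by
  unfold vertId₂
  rw [Ideal.span_le]
  rintro z (rfl | rfl)
  · rw [SetLike.mem_coe, Ideal.mem_comap, nodeExpand_πR]
    exact Ideal.subset_span (Or.inl rfl)
  · rw [SetLike.mem_coe, Ideal.mem_comap, nodeExpand_vR]
    exact Ideal.mul_mem_right _ _ (Ideal.subset_span (Or.inr rfl))

theorem vertId₁_le_comap :
    vertId₁ L i ≤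
      (Ideal.span {Tg.c (unifW L i), Tg.X}).comap (nodeExpand L i j hj Tg hfull hcol) := by
  unfold vertId₁
  rw [Ideal.span_le]
  rintro z (rfl | rfl)
  · rw [SetLike.mem_coe, Ideal.mem_comap, nodeExpand_πR]
    exact Ideal.subset_span (Or.inl rfl)
  · rw [SetLike.mem_coe, Ideal.mem_comap, nodeExpand_uR']
    exact Ideal.subset_span (Or.inr rfl)

/-- **the expansion pulls `(ϖ, Y)` back to `p2`** -/
theorem comap_nodeExpand_Y (hprime : (Ideal.span {Tg.c (unifW L i), Tg.Y}).IsPrime)
    (hX : Tg.X ∉ Ideal.span {Tg.c (unifW L i), Tg.Y}) :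
    (Ideal.span {Tg.c (unifW L i), Tg.Y}).comap (nodeExpand L i j hj Tg hfull hcol) =
      (L.level i).p2 := by
  haveI := (L.level i).isLocal
  haveI := (L.level i).noeth
  rw [p2_eq]
  refine Expand.comap_eq_of_le (nodeExpand L i j hj Tg hfull hcol) (vertId₂ L i) (L.level i).uR
    (uR_mem_maximalIdeal L i) (maximalIdeal_le_vertId₂_sup L i) _ ?_ ?_
  · intro y hy
    exact Ideal.mem_comap.mp (vertId₂_le_comap L i j hj Tg hfull hcol hy)
  · rw [nodeExpand_uR']
    exact hX

/-- **the expansion pulls `(ϖ, X)` back to `p1`** -/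
theorem comap_nodeExpand_X (hprime : (Ideal.span {Tg.c (unifW L i), Tg.X}).IsPrime)
    (hY : Tg.Y ∉ Ideal.span {Tg.c (unifW L i), Tg.X}) :
    (Ideal.span {Tg.c (unifW L i), Tg.X}).comap (nodeExpand L i j hj Tg hfull hcol) =
      (L.level i).p1 := by
  haveI := (L.level i).isLocal
  haveI := (L.level i).noeth
  rw [p1_eq]
  refine Expand.comap_eq_of_le (nodeExpand L i j hj Tg hfull hcol) (vertId₁ L i) (L.level i).vR
    (vR_mem_maximalIdeal L i) (maximalIdeal_le_vertId₁_sup L i) _ ?_ ?_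
  · intro y hy
    exact Ideal.mem_comap.mp (vertId₁_le_comap L i j hj Tg hfull hcol hy)
  · rw [nodeExpand_vR]
    intro h
    rcases hprime.mem_or_mem h with h1 | h1
    · exact hY h1
    · -- the expansion of the unit `ε₀` is a unit
      have hu : IsUnit (nodeExpand L i j hj Tg hfull hcol (εR L i)) :=
        (IsUnit.of_mul_eq_one _ (εR_mul_εinvR L i)).map _
      exact hprime.ne_top (Ideal.eq_top_of_isUnit_mem _ h1 hu)

end Vert

/-! ### the Gauss valuations of the two components -/

section Branch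

variable {K : Type} {F : Type*} [Field K] [Field F] [Algebra K F]
  {A : ValuationSubring K} [IsAlgClosed (ResidueField A)]
  {ι₀ : Type} {Ft₀ : ι₀ → Type} [∀ v, Field (Ft₀ v)] [∀ v, Algebra (ResidueField A) (Ft₀ v)]
  {ν₀ : Type} {S₀ : SemistableSetup (F := F) A (residue A) ι₀ Ft₀ ν₀} {e : ν₀} {ι : Type*}
  {L : AnnulusLevels A (tube S₀ e) ι} (Xb : BranchData S₀ e L) (i : ι)

theorem red₁_uR_ne_zero : Xb.red₁ i (L.level i).uR ≠ 0 := by
  intro h0
  have h := Xb.ord_src
  have e1 : S₀.res (S₀.src e) ⟨L.u, Xb.u_src⟩ = Xb.red₁ i (L.level i).uR := rfl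
  rw [e1, h0, Place.ord_zero] at h
  exact zero_ne_one h

theorem red₂_vR_ne_zero : Xb.red₂ i (L.level i).vR ≠ 0 := by
  intro h0
  have h := Xb.ord_tgt
  have e1 : S₀.res (S₀.tgt e) ⟨L.thick • L.u⁻¹, Xb.v_tgt⟩ =
      Xb.red₂ i (L.level i).vR * Xb.red₂ i (εinvR L i) := by
    rw [← map_mul, Xb.red₂_apply]
    congr 1
    apply Subtype.ext
    exact Xb.thick_smul_inv_eq
  rw [e1, h0, zero_mul, Place.ord_zero] at h
  exact zero_ne_one h

/-- **the kernel of the reduction on the component `src e` is `p2`** -/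
theorem ker_red₁ : RingHom.ker (Xb.red₁ i) = (L.level i).p2 := by
  haveI := (L.level i).isLocal
  haveI := (L.level i).noeth
  haveI : (RingHom.ker (Xb.red₁ i)).IsPrime := RingHom.ker_isPrime _
  rw [p2_eq]
  refine Expand.prime_eq_of_le (vertId₂ L i) (L.level i).uR (uR_mem_maximalIdeal L i)
    (maximalIdeal_le_vertId₂_sup L i) (RingHom.ker (Xb.red₁ i)) ?_ ?_
  · unfold vertId₂
    rw [Ideal.span_le]
    rintro y (rfl | rfl)
    · exact Xb.red₁_piR i
    · exact Xb.red₁_vR i
  · exact red₁_uR_ne_zero Xb i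

/-- **the kernel of the reduction on the component `tgt e` is `p1`** -/
theorem ker_red₂ : RingHom.ker (Xb.red₂ i) = (L.level i).p1 := by
  haveI := (L.level i).isLocal
  haveI := (L.level i).noeth
  haveI : (RingHom.ker (Xb.red₂ i)).IsPrime := RingHom.ker_isPrime _
  rw [p1_eq]
  refine Expand.prime_eq_of_le (vertId₁ L i) (L.level i).vR (vR_mem_maximalIdeal L i)
    (maximalIdeal_le_vertId₁_sup L i) (RingHom.ker (Xb.red₂ i)) ?_ ?_
  · unfold vertId₁
    rw [Ideal.span_le]
    rintro y (rfl | rfl)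
    · exact Xb.red₂_piR i
    · exact Xb.red₂_uR i
  · exact red₂_vR_ne_zero Xb i

include Xb in
/-- `p2` is the trace of the maximal ideal of the Gauss valuation ring of `src e` -/
theorem mem_nonunits_src_iff (y : (L.level i).R) :
    (y : F) ∈ (S₀.O (S₀.src e)).nonunits ↔ y ∈ (L.level i).p2 := by
  rw [← ker_red₁ Xb i, RingHom.mem_ker, Xb.red₁_apply]
  constructor
  · intro h
    exact BranchData.res_eq_zero_of_mem_nonunits (S₀ := S₀) (S₀.src e) h _
  · intro h
    rw [S₀.res_eq_zero_iff] at h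
    exact (ValuationSubring.mem_nonunits_iff_exists_mem_maximalIdeal).mpr
      ⟨Xb.le₁ i y y.2, (IsLocalRing.mem_maximalIdeal _).mpr h⟩

include Xb in
/-- `p1` is the trace of the maximal ideal of the Gauss valuation ring of `tgt e` -/
theorem mem_nonunits_tgt_iff (y : (L.level i).R) :
    (y : F) ∈ (S₀.O (S₀.tgt e)).nonunits ↔ y ∈ (L.level i).p1 := by
  rw [← ker_red₂ Xb i, RingHom.mem_ker, Xb.red₂_apply]
  constructor
  · intro h
    exact BranchData.res_eq_zero_of_mem_nonunits (S₀ := S₀) (S₀.tgt e) h _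
  · intro h
    rw [S₀.res_eq_zero_iff] at h
    exact (ValuationSubring.mem_nonunits_iff_exists_mem_maximalIdeal).mpr
      ⟨Xb.le₂ i y y.2, (IsLocalRing.mem_maximalIdeal _).mpr h⟩

variable {Ω : Type*} [NormedField Ω] [IsUltrametricDist Ω] (j : K →+* Ω)
  (hj : ∀ c : K, ‖j c‖ ≤ 1 ↔ c ∈ A) {B : Type*} [CommRing B]
  (Tg : Expand.NodeTargetEv (levelConst L i) (unifW L i) (thickW L i) Ω (constΩ L i j) B)
  (hfull : LevelFullRes L i) (hcol : DenseNearOne j)

include Xb in
/-- **(gaussX)** the expansion of `y` lies in `(ϖ, Y)` iff `y` is a non-unit of the Gauss valuation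
ring of the component `src e`. -/
theorem gaussX (hprime : (Ideal.span {Tg.c (unifW L i), Tg.Y}).IsPrime)
    (hX : Tg.X ∉ Ideal.span {Tg.c (unifW L i), Tg.Y}) (y : (L.level i).R) :
    nodeExpand L i j hj Tg hfull hcol y ∈ Ideal.span {Tg.c (unifW L i), Tg.Y} ↔
      (y : F) ∈ (S₀.O (S₀.src e)).nonunits := by
  rw [mem_nonunits_src_iff Xb i, ← comap_nodeExpand_Y L i j hj Tg hfull hcol hprime hX,
    Ideal.mem_comap]

include Xb in
/-- **(gaussY)** the expansion of `y` lies in `(ϖ, X)` iff `y` is a non-unit of the Gauss valuation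
ring of the component `tgt e`. -/
theorem gaussY (hprime : (Ideal.span {Tg.c (unifW L i), Tg.X}).IsPrime)
    (hY : Tg.Y ∉ Ideal.span {Tg.c (unifW L i), Tg.X}) (y : (L.level i).R) :
    nodeExpand L i j hj Tg hfull hcol y ∈ Ideal.span {Tg.c (unifW L i), Tg.X} ↔
      (y : F) ∈ (S₀.O (S₀.tgt e)).nonunits := by
  rw [mem_nonunits_tgt_iff Xb i, ← comap_nodeExpand_X L i j hj Tg hfull hcol hprime hY,
    Ideal.mem_comap]

/-- **(taylorX)** a function `y` of the level which is a unit on the component `src e` is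
`u ^ n * s` modulo `p2` with `s` a unit of the level; `n` is the order of the reduction of `y` at
the branch `s₁ e`, and the expansion of `y` is `X ^ n * (expansion of s)` modulo `(ϖ, Y)`. -/
theorem taylorX {y : (L.level i).R} (hy : y ∉ (L.level i).p2) :
    ∃ (n : ℕ) (s : (L.level i).R), IsUnit s ∧ y - (L.level i).uR ^ n * s ∈ (L.level i).p2 ∧
      (S₀.s₁ e).ord (Xb.red₁ i y) = n ∧
      nodeExpand L i j hj Tg hfull hcol y - Tg.X ^ n * nodeExpand L i j hj Tg hfull hcol s ∈
        Ideal.span {Tg.c (unifW L i), Tg.Y} := by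
  haveI := (L.level i).isLocal
  haveI := (L.level i).noeth
  rw [p2_eq] at hy
  obtain ⟨n, s, hs, hys⟩ := Expand.exists_pow_mul_sub_mem (vertId₂ L i) (L.level i).uR
    (uR_mem_maximalIdeal L i) (maximalIdeal_le_vertId₂_sup L i) hy
  refine ⟨n, s, hs, by rw [p2_eq]; exact hys, ?_, ?_⟩
  · -- the order of the reduction
    have hker : y - (L.level i).uR ^ n * s ∈ RingHom.ker (Xb.red₁ i) := by
      rw [ker_red₁, p2_eq]
      exact hys
    rw [RingHom.mem_ker, map_sub, sub_eq_zero, map_mul, map_pow] at hker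
    have hu0 := red₁_uR_ne_zero Xb i
    have hs0 : Xb.red₁ i s ≠ 0 := by
      intro h0
      have h1 := hs.map (Xb.red₁ i)
      rw [h0] at h1
      exact not_isUnit_zero h1
    have hso : (S₀.s₁ e).ord (Xb.red₁ i s) = 0 :=
      ord_res_unit_eq_zero (Xb.red₁ i) (S₀.s₁ e) (Xb.adicValuation_red₁_le_one i) hs
    have huo : (S₀.s₁ e).ord (Xb.red₁ i (L.level i).uR) = 1 := Xb.ord_src
    rw [hker, Place.ord_mul _ (pow_ne_zero n hu0) hs0, ← zpow_natCast, Place.ord_zpow, huo, hso]
    simp
  · -- the expansion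
    have h1 := Ideal.mem_comap.mp (vertId₂_le_comap L i j hj Tg hfull hcol hys)
    rw [map_sub, map_mul, map_pow, nodeExpand_uR'] at h1
    exact h1

theorem red₂_wR_ord : (S₀.s₂ e).ord (Xb.red₂ i (wR L i)) = 1 := by
  have h := Xb.ord_tgt
  have e1 : S₀.res (S₀.tgt e) ⟨L.thick • L.u⁻¹, Xb.v_tgt⟩ = Xb.red₂ i (wR L i) := by
    rw [Xb.red₂_apply]
    congr 1
    apply Subtype.ext
    exact Xb.thick_smul_inv_eq
  rw [e1] at h
  exact h

/-- **(taylorY)** a function `y` of the level which is a unit on the component `tgt e` is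
`w ^ n * s` modulo `p1` with `s` a unit of the level (`w = v ε₀⁻¹`); `n` is the order of the
reduction of `y` at the branch `s₂ e`, and the expansion of `y` is `Y ^ n * (expansion of s)` modulo
`(ϖ, X)`. -/
theorem taylorY {y : (L.level i).R} (hy : y ∉ (L.level i).p1) :
    ∃ (n : ℕ) (s : (L.level i).R), IsUnit s ∧ y - wR L i ^ n * s ∈ (L.level i).p1 ∧
      (S₀.s₂ e).ord (Xb.red₂ i y) = n ∧
      nodeExpand L i j hj Tg hfull hcol y - Tg.Y ^ n * nodeExpand L i j hj Tg hfull hcol s ∈
        Ideal.span {Tg.c (unifW L i), Tg.X} := by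
  haveI := (L.level i).isLocal
  haveI := (L.level i).noeth
  rw [p1_eq] at hy
  obtain ⟨n, s, hs, hys⟩ := Expand.exists_pow_mul_sub_mem (vertId₁ L i) (wR L i)
    (wR_mem_maximalIdeal L i) (maximalIdeal_le_vertId₁_sup_w L i) hy
  refine ⟨n, s, hs, by rw [p1_eq]; exact hys, ?_, ?_⟩
  · -- the order of the reduction
    have hker : y - wR L i ^ n * s ∈ RingHom.ker (Xb.red₂ i) := by
      rw [ker_red₂, p1_eq]
      exact hys
    rw [RingHom.mem_ker, map_sub, sub_eq_zero, map_mul, map_pow] at hker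
    have hwo := red₂_wR_ord Xb i
    have hw0 : Xb.red₂ i (wR L i) ≠ 0 := by
      intro h0
      rw [h0, Place.ord_zero] at hwo
      exact zero_ne_one hwo
    have hs0 : Xb.red₂ i s ≠ 0 := by
      intro h0
      have h1 := hs.map (Xb.red₂ i)
      rw [h0] at h1
      exact not_isUnit_zero h1
    have hso : (S₀.s₂ e).ord (Xb.red₂ i s) = 0 :=
      ord_res_unit_eq_zero (Xb.red₂ i) (S₀.s₂ e) (Xb.adicValuation_red₂_le_one i) hs
    rw [hker, Place.ord_mul _ (pow_ne_zero n hw0) hs0, ← zpow_natCast, Place.ord_zpow, hwo, hso]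
    simp
  · -- the expansion
    have h1 := Ideal.mem_comap.mp (vertId₁_le_comap L i j hj Tg hfull hcol hys)
    rw [map_sub, map_mul, map_pow, nodeExpand_w] at h1
    exact h1

end Branch

end Fermat.Agent.FF3.ExpandBR
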