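/-
PROGRAMME I (S33, p-new half), block B3 (expansion layer), node §4a, part 8 (helper20):
THE CONCRETE TARGET OF THE EXPANSION AT A NODE.

One level `i` of `L : AnnulusLevels A T ι`, `(Ω, j, hj)` with `Ω` complete.  The completed constant
field `K₁ = Kc (constField L i j) ⊆ Ω` (helper26's `FF3/Wc`) is a complete discretely valued field;
`π₁ = j thick ∈ K₁`; the target is helper10's integral node ring `NodeRing.NodeInt π₁`
(`= W[[X,Y]]/(XY - π₁)`, `W` the unit ball of `K₁`), evaluated at the points of the open annulus of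
`Ω` by helper5's `NodeEval`.

* (`NodeEval.nodeModelInt`, `NodeEval.nodeTargetInt` : helper5's `FF3/NodeEval/ModelInt`);
* `NodeTargetEv.copy` : change of the (propositionally equal) constant map `j₀`;
* `levelTarget L i j hj : Expand.NodeTargetEv (levelConst L i) (unifW L i) (thickW L i) Ω
  (constΩ L i j) (NodeInt (thickK₁ L i j))` : **plug-in (II) of `FF3/ExpandBR/Frame`**;
* `levelExpand` : the resulting expansion `(L.level i).R →+* NodeInt (thickK₁ L i j)`.
-/
import Mathlib
import Fermat.Agent.FF3.ExpandBR.Consts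
import Fermat.Agent.FF3.NodeRing.Int
import Fermat.Agent.FF3.NodeEval.ModelInt

set_option autoImplicit false

noncomputable section

namespace Fermat.Agent.FF3.ExpandBR

open AlgebraicCurve IsLocalRing Fermat.Agent.Red Fermat.Agent.BR.Centre Fermat.Agent.BR.S0
  Fermat.Agent.FF3 Fermat.Agent.FF3.Amice

/-! ### change of the constant map -/

section Copy

variable {W₀ : Type*} [CommRing W₀] {ϖ π : W₀} {Ω : Type*} [NormedField Ω] {j₀ : W₀ →+* Ω}
  {B : Type*} [CommRing B]

/-- A node target for `j₀` is a node target for any pointwise equal `j₀'`. -/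
def nodeTargetCopy (Tg : Expand.NodeTargetEv W₀ ϖ π Ω j₀ B) (j₀' : W₀ →+* Ω)
    (h : ∀ w, j₀' w = j₀ w) : Expand.NodeTargetEv W₀ ϖ π Ω j₀' B where
  c := Tg.c
  X := Tg.X
  Y := Tg.Y
  X_mul_Y := Tg.X_mul_Y
  evalAt a h1 h2 := Tg.evalAt a (by rwa [← h]) h2
  evalAt_c a h1 h2 w := by rw [Tg.evalAt_c, h]
  evalAt_X a h1 h2 := Tg.evalAt_X a _ h2
  evalAt_le a h1 h2 b := Tg.evalAt_le a _ h2 b
  complete f hf := by
    obtain ⟨l, hl⟩ := Tg.complete f hf
    exact ⟨l, fun a h1 h2 => hl a _ h2⟩
  ident b hb := by
    obtain ⟨ρ, hρ, h' | h'⟩ := Tg.ident b hb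
    · exact ⟨ρ, hρ, Or.inl fun a h1 h2 hρa => h' a _ h2 hρa⟩
    · refine ⟨ρ, hρ, Or.inr fun a h1 h2 hρa => h' a _ h2 ?_⟩
      rwa [← h]

end Copy

/-! ### the target at a level -/

section Level

variable {K F : Type*} [Field K] [Field F] [Algebra K F]
  {A : ValuationSubring K} {T : Set (Place K F)} {ι : Type*}
  (L : AnnulusLevels A T ι) (i : ι)
  {Ω : Type*} [NormedField Ω] [IsUltrametricDist Ω] [CompleteSpace Ω]
  (j : K →+* Ω) (hj : ∀ c : K, ‖j c‖ ≤ 1 ↔ c ∈ A)

/-- `Ω` as a normed algebra over a subfield -/
@[instance_reducible]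
def normedAlgebraSubfield (K₁ : Subfield Ω) : NormedAlgebra K₁ Ω where
  __ := K₁.toAlgebra
  norm_smul_le r x := by
    rw [Algebra.smul_def, norm_mul]
    rfl

attribute [local instance] normedAlgebraSubfield

/-- the completed constant field of the level -/
abbrev constK₁ : Subfield Ω := Wc.Kc (constField L i j)

/-- the thickness, in the completed constant field -/
def thickK₁ : constK₁ L i j := ⟨j L.thick, thick_mem_Kc L i j⟩

@[simp] theorem coe_thickK₁ : ((thickK₁ L i j : constK₁ L i j) : Ω) = j L.thick := rfl

include hj in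
theorem thickK₁_ne_zero : thickK₁ L i j ≠ 0 := by
  intro h
  have h1 := congrArg (fun x : constK₁ L i j => (x : Ω)) h
  exact (map_ne_zero j).mpr L.thick_ne h1

include hj in
theorem norm_thickK₁_lt_one : ‖thickK₁ L i j‖ < 1 := norm_thick_lt_one L j hj

/-- the constants of the level, in the completed constant field -/
def constToK₁ : levelConst L i →+* constK₁ L i j :=
  (constΩ L i j).codRestrict (constK₁ L i j) (fun c =>
    Wc.le_Kc _ (map_mem_constField L i j ((mem_levelConst L i).mp c.2).2))

@[simp] theorem coe_constToK₁ (c : levelConst L i) :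
    ((constToK₁ L i j c : constK₁ L i j) : Ω) = j (c : K) := rfl

include hj in
theorem norm_constToK₁_le (c : levelConst L i) : ‖constToK₁ L i j c‖ ≤ 1 :=
  (hj _).mpr ((mem_levelConst L i).mp c.2).1

include hj in
theorem norm_constToK₁_unifW_lt : ‖constToK₁ L i j (unifW L i)‖ < 1 :=
  (norm_lt_one_iff j hj _).mpr (L.level i).unif_lt

include hj in
theorem norm_le_mul_of_lt_K₁ (x y : constK₁ L i j) (hxy : ‖x‖ < ‖y‖) :
    ‖x‖ ≤ ‖j (L.level i).ϖ‖ * ‖y‖ :=
  norm_le_mul_of_lt_Kc L i j hj x.2 y.2 hxy

/-- **The concrete node target of the level `i`**: the integral node ring over the completed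
constants of the level, with thickness `j thick`. -/
def levelTarget :
    Expand.NodeTargetEv (levelConst L i) (unifW L i) (thickW L i) Ω (constΩ L i j)
      (NodeRing.NodeInt (thickK₁ L i j)) :=
  nodeTargetCopy
    (NodeEval.nodeTargetInt (Ω := Ω) (θ := ‖j (L.level i).ϖ‖)
      ((norm_lt_one_iff j hj _).mpr (L.level i).unif_lt)
      (norm_le_mul_of_lt_K₁ L i j hj) (thickK₁_ne_zero L i j hj) (norm_thickK₁_lt_one L i j hj)
      (constToK₁ L i j) (norm_constToK₁_le L i j hj) (unifW L i) (thickW L i)
      (norm_constToK₁_unifW_lt L i j hj) rfl)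
    (constΩ L i j) (fun _ => rfl)

theorem levelTarget_X :
    (levelTarget L i j hj).X =
      NodeRing.XInt (thickK₁_ne_zero L i j hj) (norm_thickK₁_lt_one L i j hj).le :=
  NodeEval.Xel_nodeModelInt _ _

theorem levelTarget_Y :
    (levelTarget L i j hj).Y =
      NodeRing.YInt (thickK₁_ne_zero L i j hj) (norm_thickK₁_lt_one L i j hj).le :=
  NodeEval.Yel_nodeModelInt _ _

theorem levelTarget_c (w : levelConst L i) :
    (levelTarget L i j hj).c w =
      NodeRing.cInt (constToK₁ L i j w) (norm_constToK₁_le L i j hj w) :=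
  NodeEval.constHom_nodeModelInt _ _ _ _ w

/-- the evaluation of the target at a point of the open annulus is the sum of the series -/
theorem levelTarget_evalAt (a : Ω) (h1 : ‖constΩ L i j (thickW L i)‖ < ‖a‖) (h2 : ‖a‖ < 1)
    (g : NodeRing.NodeInt (thickK₁ L i j)) :
    (levelTarget L i j hj).evalAt a h1 h2 g =
      ∑' n : ℤ, NodeEval.term a (NodeRing.toX (g : NodeRing.NodeB (thickK₁ L i j))) n := rfl

variable (hfull : LevelFullRes L i) (hcol : DenseNearOne j)

/-- **The expansion at the node of the functions of the level `i`**, with values in the integral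
node ring over the completed constants. -/
def levelExpand : (L.level i).R →+* NodeRing.NodeInt (thickK₁ L i j) :=
  nodeExpand L i j hj (levelTarget L i j hj) hfull hcol

theorem levelExpand_u :
    levelExpand L i j hj hfull hcol (uR L i) =
      NodeRing.XInt (thickK₁_ne_zero L i j hj) (norm_thickK₁_lt_one L i j hj).le := by
  rw [levelExpand, nodeExpand_u, levelTarget_X]

theorem levelExpand_w :
    levelExpand L i j hj hfull hcol (wR L i) =
      NodeRing.YInt (thickK₁_ne_zero L i j hj) (norm_thickK₁_lt_one L i j hj).le := by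
  rw [levelExpand, nodeExpand_w, levelTarget_Y]

theorem levelExpand_const (a : levelConst L i) :
    levelExpand L i j hj hfull hcol (constHom L i a) =
      NodeRing.cInt (constToK₁ L i j a) (norm_constToK₁_le L i j hj a) := by
  rw [levelExpand, nodeExpand_const, levelTarget_c]

/-- **the expansion is injective** -/
theorem levelExpand_injective : Function.Injective (levelExpand L i j hj hfull hcol) :=
  nodeExpand_injective L i j hj (levelTarget L i j hj) hfull hcol

/-- **the values of the expansion**: at a place `P` of the tube, the series of the expansion of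
`y`, evaluated at the parameter `u(P)`, sums to the value `y(P)`. -/
theorem tsum_levelExpand (P : T) (y : (L.level i).R) :
    ∑' n : ℤ, NodeEval.term (pointVal L i j P)
      (NodeRing.toX ((levelExpand L i j hj hfull hcol y : NodeRing.NodeInt (thickK₁ L i j)) :
        NodeRing.NodeB (thickK₁ L i j))) n = evΩ L i j P y :=
  evalAt_nodeExpand L i j hj (levelTarget L i j hj) hfull hcol P y

/-- the expansion is the only ring homomorphism into the integral node ring with these values -/
theorem levelExpand_unique (e : (L.level i).R →+* NodeRing.NodeInt (thickK₁ L i j))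
    (he : ∀ (P : T) (y : (L.level i).R),
      ∑' n : ℤ, NodeEval.term (pointVal L i j P)
        (NodeRing.toX ((e y : NodeRing.NodeInt (thickK₁ L i j)) :
          NodeRing.NodeB (thickK₁ L i j))) n = evΩ L i j P y) :
    e = levelExpand L i j hj hfull hcol :=
  nodeExpand_unique L i j hj (levelTarget L i j hj) hfull hcol e he

end Level

end Fermat.Agent.FF3.ExpandBR
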