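/-
PROGRAMME I (S33, p-new half), block B3 (expansion layer), node §4a, part 9 (helper20):
THE GAUSS AND TAYLOR STATEMENTS AT THE CONCRETE TARGET.

One level `i` of the tube of a node `e`, `Xb : BranchData S₀ e L`, `(Ω, j, hj)` with `Ω` complete,
`levelExpand : (L.level i).R →+* NodeInt (thickK₁ L i j)` (`FF3/ExpandBR/Instance`).

* `isDiscreteNorm_unifK₁` : the completed constant field is discretely normed in the sense of
  helper11's `AmiceU.IsDiscreteNorm` (input of helper10's `NodeRing/Red`);
* `levelTarget_span_Y`, `levelTarget_span_X` : `(ϖ, Y) = idealX = {‖toX g‖ < 1}`,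
  `(ϖ, X) = idealY = {‖toY g‖ < 1}`;
* `levelGaussX`, `levelGaussY` : `‖toX (levelExpand y)‖ < 1 ↔ y ∈ 𝔪_{O (src e)}`,
  `‖toY (levelExpand y)‖ < 1 ↔ y ∈ 𝔪_{O (tgt e)}`;
* `levelTaylorX`, `levelTaylorY` : the Taylor order at the two branches.
-/
import Mathlib
import Fermat.Agent.FF3.ExpandBR.Instance
import Fermat.Agent.FF3.ExpandBR.Branch
import Fermat.Agent.FF3.NodeRing.Red

set_option autoImplicit false

noncomputable section

namespace Fermat.Agent.FF3.ExpandBR

open AlgebraicCurve IsLocalRing Fermat.Agent.Red Fermat.Agent.BR.Centre Fermat.Agent.BR.SS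
  Fermat.Agent.BR.Refine Fermat.Agent.BR.S0 Fermat.Agent.BR.S0.AnnulusChartOfLevels
  Fermat.Agent.FF3 Fermat.Agent.FF3.Amice

attribute [local instance] normedAlgebraSubfield

/-! ### discreteness and the two vertical primes of the target -/

section Level

variable {K F : Type*} [Field K] [Field F] [Algebra K F]
  {A : ValuationSubring K} {T : Set (Place K F)} {ι : Type*}
  (L : AnnulusLevels A T ι) (i : ι)
  {Ω : Type*} [NormedField Ω] [IsUltrametricDist Ω] [CompleteSpace Ω]
  (j : K →+* Ω) (hj : ∀ c : K, ‖j c‖ ≤ 1 ↔ c ∈ A)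

/-- the uniformizer of the level, in the completed constant field -/
def unifK₁ : constK₁ L i j := constToK₁ L i j (unifW L i)

@[simp] theorem coe_unifK₁ : ((unifK₁ L i j : constK₁ L i j) : Ω) = j (L.level i).ϖ := rfl

include hj in
/-- **the completed constant field is discretely normed** (helper11's literal) -/
theorem isDiscreteNorm_unifK₁ : AmiceU.IsDiscreteNorm (unifK₁ L i j) := by
  have h := isDiscNormed_constField L i j hj
  refine ⟨h.pos, h.lt_one, fun a ha => ?_⟩
  have ha' : (a : Ω) ≠ 0 := fun h0 => ha (Subtype.ext h0)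
  exact h.exists_zpow_eq_closure a.2 ha'

theorem levelTarget_c_unifW :
    (levelTarget L i j hj).c (unifW L i) =
      NodeRing.cInt (unifK₁ L i j) (isDiscreteNorm_unifK₁ L i j hj).2.1.le :=
  levelTarget_c L i j hj (unifW L i)

/-- `(ϖ, Y) = {g | ‖toX g‖ < 1}` in the target -/
theorem levelTarget_span_Y :
    Ideal.span {(levelTarget L i j hj).c (unifW L i), (levelTarget L i j hj).Y} =
      NodeRing.idealX (thickK₁ L i j) := by
  rw [levelTarget_c_unifW, levelTarget_Y]
  exact NodeRing.span_unif_Y_eq (isDiscreteNorm_unifK₁ L i j hj) (thickK₁_ne_zero L i j hj)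
    (norm_thickK₁_lt_one L i j hj)

/-- `(ϖ, X) = {g | ‖toY g‖ < 1}` in the target -/
theorem levelTarget_span_X :
    Ideal.span {(levelTarget L i j hj).c (unifW L i), (levelTarget L i j hj).X} =
      NodeRing.idealY (thickK₁ L i j) := by
  rw [levelTarget_c_unifW, levelTarget_X]
  exact NodeRing.span_unif_X_eq (isDiscreteNorm_unifK₁ L i j hj) (thickK₁_ne_zero L i j hj)
    (norm_thickK₁_lt_one L i j hj)

theorem levelTarget_isPrime_span_Y :
    (Ideal.span {(levelTarget L i j hj).c (unifW L i), (levelTarget L i j hj).Y}).IsPrime := by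
  rw [levelTarget_span_Y]
  exact NodeRing.isPrime_idealX (isDiscreteNorm_unifK₁ L i j hj)

theorem levelTarget_isPrime_span_X :
    (Ideal.span {(levelTarget L i j hj).c (unifW L i), (levelTarget L i j hj).X}).IsPrime := by
  rw [levelTarget_span_X]
  exact NodeRing.isPrime_idealY (isDiscreteNorm_unifK₁ L i j hj)

theorem levelTarget_X_notMem :
    (levelTarget L i j hj).X ∉
      Ideal.span {(levelTarget L i j hj).c (unifW L i), (levelTarget L i j hj).Y} := by
  rw [levelTarget_span_Y, levelTarget_X]
  exact NodeRing.XInt_notMem_idealX _ _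

theorem levelTarget_Y_notMem :
    (levelTarget L i j hj).Y ∉
      Ideal.span {(levelTarget L i j hj).c (unifW L i), (levelTarget L i j hj).X} := by
  rw [levelTarget_span_X, levelTarget_Y]
  exact NodeRing.YInt_notMem_idealY _ _

/-! ### the residue condition and the density of the expansions -/

include hj in
/-- the constants of the level are dense modulo `ϖ` in the unit ball of the completed constants -/
theorem exists_const_approx (a : constK₁ L i j) (ha : ‖a‖ ≤ 1) :
    ∃ w : levelConst L i, ‖a - constToK₁ L i j w‖ ≤ ‖constToK₁ L i j (unifW L i)‖ := by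
  have h := isDiscNormed_constField L i j hj
  obtain ⟨x, hx⟩ := h.exists_approx (⟨(a : Ω), a.2, ha⟩ : Wc.Wc (constField L i j)) 1
  rw [pow_one] at hx
  obtain ⟨c, hc, hcx⟩ := (mem_constField L i j).mp x.2.1
  have hcA : c ∈ A := (hj c).mp (by rw [hcx]; exact x.2.2)
  refine ⟨⟨c, (mem_levelConst L i).mpr ⟨hcA, hc⟩⟩, ?_⟩
  show ‖(a : Ω) - j c‖ ≤ ‖j (L.level i).ϖ‖
  rw [hcx]
  exact hx

include hj in
/-- **the residue condition of the target**: `NodeInt = c(W₀) + (ϖ, X, Y)` -/
theorem levelTarget_hresB (b : NodeRing.NodeInt (thickK₁ L i j)) :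
    ∃ w : levelConst L i, b - (levelTarget L i j hj).c w ∈
      Ideal.span {(levelTarget L i j hj).c (unifW L i), (levelTarget L i j hj).X,
        (levelTarget L i j hj).Y} := by
  have hne : constToK₁ L i j (unifW L i) ≠ 0 := by
    intro h0
    have h1 := congrArg (fun x : constK₁ L i j => (x : Ω)) h0
    exact (map_ne_zero j).mpr (L.level i).unif_ne h1
  exact NodeEval.nodeTargetInt_hresB (Ω := Ω) (θ := ‖j (L.level i).ϖ‖)
    ((norm_lt_one_iff j hj _).mpr (L.level i).unif_lt)
    (norm_le_mul_of_lt_K₁ L i j hj) (thickK₁_ne_zero L i j hj) (norm_thickK₁_lt_one L i j hj)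
    (constToK₁ L i j) (norm_constToK₁_le L i j hj) (unifW L i) (thickW L i)
    (norm_constToK₁_unifW_lt L i j hj) rfl hne (exists_const_approx L i j hj) b

variable (hfull : LevelFullRes L i) (hcol : DenseNearOne j)

/-- **density of the expansions**: every element of the integral node ring is the expansion of a
function of the level modulo `(ϖ, X, Y) ^ N`. -/
theorem exists_levelExpand_approx (g : NodeRing.NodeInt (thickK₁ L i j)) (N : ℕ) :
    ∃ ρ : (L.level i).R, g - levelExpand L i j hj hfull hcol ρ ∈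
      Ideal.span {(levelTarget L i j hj).c (unifW L i), (levelTarget L i j hj).X,
        (levelTarget L i j hj).Y} ^ N := by
  have h := (nodeExpData L i j hj (levelTarget L i j hj) hfull hcol).exists_expand_approx
    (fun b => by
      have h1 := levelTarget_hresB L i j hj b
      have e : (nodeExpData L i j hj (levelTarget L i j hj) hfull hcol).mB =
          Ideal.span {(levelTarget L i j hj).c (unifW L i), (levelTarget L i j hj).X,
            (levelTarget L i j hj).Y} := by
        show Ideal.span (insert ((levelTarget L i j hj).c (unifW L i))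
          (Set.range ![(levelTarget L i j hj).X, (levelTarget L i j hj).Y])) = _
        rw [range_vecPair]
      rw [e]
      exact h1) g N
  have e : (nodeExpData L i j hj (levelTarget L i j hj) hfull hcol).mB =
      Ideal.span {(levelTarget L i j hj).c (unifW L i), (levelTarget L i j hj).X,
        (levelTarget L i j hj).Y} := by
    show Ideal.span (insert ((levelTarget L i j hj).c (unifW L i))
      (Set.range ![(levelTarget L i j hj).X, (levelTarget L i j hj).Y])) = _
    rw [range_vecPair]
  rw [e] at h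
  exact h

end Level

/-! ### a lemma on powers of ideals -/

section Pow

variable {R : Type*} [CommRing R]

/-- `(J + (x)) ^ N ⊆ J + (x ^ N)` -/
theorem sup_span_pow_le (J : Ideal R) (x : R) (N : ℕ) :
    (J ⊔ Ideal.span {x}) ^ N ≤ J ⊔ Ideal.span {x ^ N} := by
  induction N with
  | zero =>
    rw [pow_zero, pow_zero, Ideal.span_singleton_one, Ideal.one_eq_top]
    exact le_sup_right
  | succ N ih =>
    rw [pow_succ]
    refine (Ideal.mul_mono ih le_rfl).trans ?_
    rw [Ideal.mul_sup, Ideal.sup_mul, Ideal.sup_mul]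
    refine sup_le (sup_le (Ideal.mul_le_left.trans le_sup_left)
      (Ideal.mul_le_right.trans le_sup_left)) (sup_le (Ideal.mul_le_left.trans le_sup_left) ?_)
    rw [Ideal.span_singleton_mul_span_singleton, ← pow_succ]
    exact le_sup_right

theorem span_triple_eq_sup_right (a x y : R) :
    Ideal.span ({a, x, y} : Set R) = Ideal.span {a, y} ⊔ Ideal.span {x} := by
  rw [← Ideal.span_union]
  congr 1
  ext z
  simp only [Set.mem_insert_iff, Set.mem_singleton_iff, Set.union_singleton]
  tauto

theorem span_triple_eq_sup_left (a x y : R) :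
    Ideal.span ({a, x, y} : Set R) = Ideal.span {a, x} ⊔ Ideal.span {y} := by
  rw [← Ideal.span_union]
  congr 1
  ext z
  simp only [Set.mem_insert_iff, Set.mem_singleton_iff, Set.union_singleton]
  tauto

/-- an element of `(a, x, y) ^ N` is `x ^ N * g'` modulo `(a, y)` -/
theorem exists_pow_mul_of_mem_pow_right {a x y z : R} {N : ℕ}
    (hz : z ∈ Ideal.span ({a, x, y} : Set R) ^ N) :
    ∃ g' : R, z - x ^ N * g' ∈ Ideal.span ({a, y} : Set R) := by
  rw [span_triple_eq_sup_right] at hz
  have h := sup_span_pow_le _ x N hz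
  obtain ⟨u, hu, v, hv, rfl⟩ := Submodule.mem_sup.mp h
  obtain ⟨g', rfl⟩ := Ideal.mem_span_singleton'.mp hv
  refine ⟨g', ?_⟩
  have e : u + g' * x ^ N - x ^ N * g' = u := by ring
  rw [e]
  exact hu

/-- an element of `(a, x, y) ^ N` is `y ^ N * g''` modulo `(a, x)` -/
theorem exists_pow_mul_of_mem_pow_left {a x y z : R} {N : ℕ}
    (hz : z ∈ Ideal.span ({a, x, y} : Set R) ^ N) :
    ∃ g'' : R, z - y ^ N * g'' ∈ Ideal.span ({a, x} : Set R) := by
  rw [span_triple_eq_sup_left] at hz
  have h := sup_span_pow_le _ y N hz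
  obtain ⟨u, hu, v, hv, rfl⟩ := Submodule.mem_sup.mp h
  obtain ⟨g'', rfl⟩ := Ideal.mem_span_singleton'.mp hv
  refine ⟨g'', ?_⟩
  have e : u + g'' * y ^ N - y ^ N * g'' = u := by ring
  rw [e]
  exact hu

end Pow

/-! ### the Gauss valuations and the Taylor orders -/

section Branch

variable {K : Type} {F : Type*} [Field K] [Field F] [Algebra K F]
  {A : ValuationSubring K} [IsAlgClosed (ResidueField A)]
  {ι₀ : Type} {Ft₀ : ι₀ → Type} [∀ v, Field (Ft₀ v)] [∀ v, Algebra (ResidueField A) (Ft₀ v)]
  {ν₀ : Type} {S₀ : SemistableSetup (F := F) A (residue A) ι₀ Ft₀ ν₀} {e : ν₀} {ι : Type*}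
  {L : AnnulusLevels A (tube S₀ e) ι} (Xb : BranchData S₀ e L) (i : ι)
  {Ω : Type*} [NormedField Ω] [IsUltrametricDist Ω] [CompleteSpace Ω]
  (j : K →+* Ω) (hj : ∀ c : K, ‖j c‖ ≤ 1 ↔ c ∈ A)
  (hfull : LevelFullRes L i) (hcol : DenseNearOne j)

include Xb in
/-- **(gaussX), norm form**: the `X`-expansion of `y` has Gauss norm `< 1` iff `y` is a non-unit of
the valuation ring of the component `src e`. -/
theorem levelGaussX (y : (L.level i).R) :
    ‖NodeRing.toX ((levelExpand L i j hj hfull hcol y : NodeRing.NodeInt (thickK₁ L i j)) :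
      NodeRing.NodeB (thickK₁ L i j))‖ < 1 ↔ (y : F) ∈ (S₀.O (S₀.src e)).nonunits := by
  rw [← gaussX Xb i j hj (levelTarget L i j hj) hfull hcol (levelTarget_isPrime_span_Y L i j hj)
    (levelTarget_X_notMem L i j hj) y, levelTarget_span_Y, NodeRing.mem_idealX]
  rfl

include Xb in
/-- **(gaussY), norm form**: the `Y`-expansion of `y` has Gauss norm `< 1` iff `y` is a non-unit of
the valuation ring of the component `tgt e`. -/
theorem levelGaussY (y : (L.level i).R) :
    ‖NodeRing.toY ((levelExpand L i j hj hfull hcol y : NodeRing.NodeInt (thickK₁ L i j)) :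
      NodeRing.NodeB (thickK₁ L i j))‖ < 1 ↔ (y : F) ∈ (S₀.O (S₀.tgt e)).nonunits := by
  rw [← gaussY Xb i j hj (levelTarget L i j hj) hfull hcol (levelTarget_isPrime_span_X L i j hj)
    (levelTarget_Y_notMem L i j hj) y, levelTarget_span_X, NodeRing.mem_idealY]
  rfl

include Xb in
/-- `‖toX (levelExpand y)‖ < 1 ↔ y ∈ p2` -/
theorem norm_toX_levelExpand_lt_one_iff (y : (L.level i).R) :
    ‖NodeRing.toX ((levelExpand L i j hj hfull hcol y : NodeRing.NodeInt (thickK₁ L i j)) :
      NodeRing.NodeB (thickK₁ L i j))‖ < 1 ↔ y ∈ (L.level i).p2 := by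
  rw [levelGaussX Xb i j hj hfull hcol y, mem_nonunits_src_iff Xb i y]

include Xb in
/-- `‖toY (levelExpand y)‖ < 1 ↔ y ∈ p1` -/
theorem norm_toY_levelExpand_lt_one_iff (y : (L.level i).R) :
    ‖NodeRing.toY ((levelExpand L i j hj hfull hcol y : NodeRing.NodeInt (thickK₁ L i j)) :
      NodeRing.NodeB (thickK₁ L i j))‖ < 1 ↔ y ∈ (L.level i).p1 := by
  rw [levelGaussY Xb i j hj hfull hcol y, mem_nonunits_tgt_iff Xb i y]

include Xb in
/-- the `X`-expansion of a function of the level outside `p2` has Gauss norm `1` -/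
theorem norm_toX_levelExpand_eq_one {s : (L.level i).R} (hs : s ∉ (L.level i).p2) :
    ‖NodeRing.toX ((levelExpand L i j hj hfull hcol s : NodeRing.NodeInt (thickK₁ L i j)) :
      NodeRing.NodeB (thickK₁ L i j))‖ = 1 :=
  le_antisymm (NodeRing.norm_toX_le_one _)
    (not_lt.1 fun h => hs ((norm_toX_levelExpand_lt_one_iff Xb i j hj hfull hcol s).1 h))

include Xb in
/-- the `Y`-expansion of a function of the level outside `p1` has Gauss norm `1` -/
theorem norm_toY_levelExpand_eq_one {s : (L.level i).R} (hs : s ∉ (L.level i).p1) :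
    ‖NodeRing.toY ((levelExpand L i j hj hfull hcol s : NodeRing.NodeInt (thickK₁ L i j)) :
      NodeRing.NodeB (thickK₁ L i j))‖ = 1 :=
  le_antisymm (NodeRing.norm_toY_le_one _)
    (not_lt.1 fun h => hs ((norm_toY_levelExpand_lt_one_iff Xb i j hj hfull hcol s).1 h))

/-- **(taylorX) at the concrete target**: a function `y` of the level which is a unit on the
component `src e` has expansion `X ^ n * (expansion of a unit s)` modulo `{‖toX g‖ < 1}`, `n` the
order of its reduction at the branch `s₁ e`. -/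
theorem levelTaylorX {y : (L.level i).R} (hy : y ∉ (L.level i).p2) :
    ∃ (n : ℕ) (s : (L.level i).R), IsUnit s ∧ y - (L.level i).uR ^ n * s ∈ (L.level i).p2 ∧
      (S₀.s₁ e).ord (Xb.red₁ i y) = n ∧
      levelExpand L i j hj hfull hcol y -
        NodeRing.XInt (thickK₁_ne_zero L i j hj) (norm_thickK₁_lt_one L i j hj).le ^ n *
          levelExpand L i j hj hfull hcol s ∈ NodeRing.idealX (thickK₁ L i j) := by
  obtain ⟨n, s, hs, h1, h2, h3⟩ := taylorX Xb i j hj (levelTarget L i j hj) hfull hcol hy
  refine ⟨n, s, hs, h1, h2, ?_⟩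
  rw [levelTarget_span_Y, levelTarget_X] at h3
  exact h3

/-- **(taylorY) at the concrete target**. -/
theorem levelTaylorY {y : (L.level i).R} (hy : y ∉ (L.level i).p1) :
    ∃ (n : ℕ) (s : (L.level i).R), IsUnit s ∧ y - wR L i ^ n * s ∈ (L.level i).p1 ∧
      (S₀.s₂ e).ord (Xb.red₂ i y) = n ∧
      levelExpand L i j hj hfull hcol y -
        NodeRing.YInt (thickK₁_ne_zero L i j hj) (norm_thickK₁_lt_one L i j hj).le ^ n *
          levelExpand L i j hj hfull hcol s ∈ NodeRing.idealY (thickK₁ L i j) := by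
  obtain ⟨n, s, hs, h1, h2, h3⟩ := taylorY Xb i j hj (levelTarget L i j hj) hfull hcol hy
  refine ⟨n, s, hs, h1, h2, ?_⟩
  rw [levelTarget_span_X, levelTarget_Y] at h3
  exact h3

end Branch

end Fermat.Agent.FF3.ExpandBR
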