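/-
PROGRAMME I (S33, p-new half), block B3 (expansion layer), node §4a, part 6 (helper20):
KRULL-NORMALITY AT A NODE LEVEL (the node analogue of `SmoothLevel.mem_of_regular`).

A quotient of functions of a level `R = (L.level i).R` of the tube of a node which is integral on
both components through the node and has no pole on the tube lies in `R`.

* `NodeLevel.mem_of_regular'` : abstract form (two valuation rings `O₁`, `O₂` whose maximal ideals
  trace `p2`, `p1` on `R`);
* `mem_level_of_regular` : the form with the branch data `Xb : BranchData S₀ e L`.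
-/
import Mathlib
import Fermat.Agent.BR.S0.KrullDescent
import Fermat.Agent.BR.S0.SmoothDescent
import Fermat.Agent.FF3.ExpandBR.Branch

set_option autoImplicit false

noncomputable section

namespace Fermat.Agent.FF3.ExpandBR

open AlgebraicCurve IsLocalRing Fermat.Agent.Red Fermat.Agent.BR.Centre Fermat.Agent.BR.SS
  Fermat.Agent.BR.Refine Fermat.Agent.BR.S0 Fermat.Agent.BR.S0.AnnulusChartOfLevels

section Abstract

variable {K F : Type*} [Field K] [Field F] [Algebra K F]
  {A : ValuationSubring K} {T : Set (Place K F)} {u v ε₀ : F} {thick : K}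

/-- the places of the tube are integral on a level -/
theorem nodeLevel_integralAt (N : NodeLevel A T u v ε₀ thick) {P : Place K F} (hP : P ∈ T) :
    IntegralAt A N.R P := (N.centred P hP).1

/-- **Krull-normality at a node level** (abstract form): a quotient of functions of `R` which lies
in two valuation rings tracing the two vertical primes and has no pole on the tube lies in `R`. -/
theorem nodeLevel_mem_of_regular (N : NodeLevel A T u v ε₀ thick) (O₁ O₂ : ValuationSubring F)
    (hle₁ : ∀ y ∈ N.R, y ∈ O₁) (hle₂ : ∀ y ∈ N.R, y ∈ O₂)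
    (hp2 : ∀ y : N.R, (y : F) ∈ O₁.nonunits ↔ y ∈ N.p2)
    (hp1 : ∀ y : N.R, (y : F) ∈ O₂.nonunits ↔ y ∈ N.p1)
    {y : F} {a b : N.R} (hb : b ≠ 0) (hyab : y * (b : F) = (a : F)) (h₁ : y ∈ O₁) (h₂ : y ∈ O₂)
    (hyT : ∀ P ∈ T, 0 ≤ P.ord y) : y ∈ N.R := by
  have := N.noeth
  have := N.intClosed
  refine mem_of_dominated N.R ({O₁, O₂} ∪ {V | ∃ P ∈ T, V = P.toValuationSubring}) ?_ ?_ hb hyab ?_
  · rintro V ((rfl | rfl) | ⟨P, hP, rfl⟩) x hx
    · exact hle₁ x hx
    · exact hle₂ x hx
    · exact (nodeLevel_integralAt N hP).mem_toValuationSubring hx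
  · intro p hp hht
    by_cases hw : (⟨algebraMap K F N.ϖ, N.unif_memR⟩ : N.R) ∈ p
    · rcases N.vertical p hp hht hw with rfl | rfl
      · exact ⟨O₂, Or.inl (Or.inr rfl), fun x => (hp1 x).symm⟩
      · exact ⟨O₁, Or.inl (Or.inl rfl), fun x => (hp2 x).symm⟩
    · obtain ⟨P, hP, hpP⟩ := N.horiz p hp hht hw
      refine ⟨P.toValuationSubring, Or.inr ⟨P, hP, rfl⟩, fun x => ?_⟩
      rw [hpP x, mem_nonunits_iff_evalAt_eq_zero_of_integralAt (nodeLevel_integralAt N hP) x.2]
  · rintro V ((rfl | rfl) | ⟨P, hP, rfl⟩)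
    · exact h₁
    · exact h₂
    · exact (Fermat.Agent.X0.Place.mem_iff_ord_nonneg P).mpr (hyT P hP)

end Abstract

section Branch

variable {K : Type} {F : Type*} [Field K] [Field F] [Algebra K F]
  {A : ValuationSubring K} [IsAlgClosed (ResidueField A)]
  {ι₀ : Type} {Ft₀ : ι₀ → Type} [∀ v, Field (Ft₀ v)] [∀ v, Algebra (ResidueField A) (Ft₀ v)]
  {ν₀ : Type} {S₀ : SemistableSetup (F := F) A (residue A) ι₀ Ft₀ ν₀} {e : ν₀} {ι : Type*}
  {L : AnnulusLevels A (tube S₀ e) ι} (Xb : BranchData S₀ e L) (i : ι)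

include Xb in
/-- **Krull-normality at a level of the tube of a node**: a quotient of functions of the level
which is integral on both components through the node and has no pole on the tube lies in the
level. -/
theorem mem_level_of_regular {y : F} {a b : (L.level i).R} (hb : b ≠ 0)
    (hyab : y * (b : F) = (a : F)) (h₁ : y ∈ S₀.O (S₀.src e)) (h₂ : y ∈ S₀.O (S₀.tgt e))
    (hyT : ∀ P ∈ tube S₀ e, 0 ≤ P.ord y) : y ∈ (L.level i).R :=
  nodeLevel_mem_of_regular (L.level i) (S₀.O (S₀.src e)) (S₀.O (S₀.tgt e)) (Xb.le₁ i) (Xb.le₂ i)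
    (mem_nonunits_src_iff Xb i) (mem_nonunits_tgt_iff Xb i) hb hyab h₁ h₂ hyT

end Branch

end Fermat.Agent.FF3.ExpandBR
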