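/-
PROGRAMME I (S33, p-new half), T3 node part (N) (helper20, with helper10's Banach half):
THE NODE PART OF THE EXPANSION PACKAGE, `B4.NodePart C e` (helper22's `FF3/B4/Parts`).

One level `i` of the tube of the node `e`, `Xb : BranchData S₀ e L`, `(Ω, j, hj)` with `Ω` complete,
`K₁ = constK₁ L i j` the completed constants, `π₁ = thickK₁ L i j`.  The node diagram is

  `C.Oh (src e) --b1--> BAmice K₁ <--toX-- NodeB π₁ --toY--> BAmice K₁ <--b2-- C.Oh (tgt e)`

with `b1`, `b2` INPUTS (they come from the completions of the components, `DVCompl.lift`), subject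
to: bounded by `1`, the commuting squares `b1 ∘ ofRatAt = toX ∘ levelExpand` and
`b2 ∘ ofRatAt = toY ∘ levelExpand` on the level ring, and the density of the rational functions in
`C.Oh v` modulo the uniformizer.

* `NodeInput` : the inputs; `sideHyp₁`, `sideHyp₂` : helper22's `B4.SideHyp` on the two sides;
* `nodePart` : the node part.
-/
import Mathlib
import Fermat.Agent.FF3.ExpandBR.Concrete
import Fermat.Agent.FF3.ExpandBR.Regular
import Fermat.Agent.FF3.NodeRing.Side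
import Fermat.Agent.FF3.GaussLoc.Node
import Fermat.Agent.FF3.B4.Parts
import Fermat.Agent.FF3.B4.Taylor

set_option autoImplicit false

noncomputable section

namespace Fermat.Agent.FF3.ExpandBR

open AlgebraicCurve IsLocalRing Fermat.Agent.Red Fermat.Agent.BR.Centre Fermat.Agent.BR.SS
  Fermat.Agent.BR.Refine Fermat.Agent.BR.S0 Fermat.Agent.BR.S0.AnnulusChartOfLevels
  Fermat.Agent.FF3 Fermat.Agent.FF3.Amice Fermat.Agent.FF3.B4

attribute [local instance] normedAlgebraSubfield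

universe u w

variable {K : Type} {F : Type u} [Field K] [Field F] [Algebra K F]
  {A : ValuationSubring K} [IsAlgClosed (ResidueField A)]
  {ι₀ : Type} {Ft₀ : ι₀ → Type} [∀ v, Field (Ft₀ v)] [∀ v, Algebra (ResidueField A) (Ft₀ v)]
  {ν₀ : Type} {S₀ : SemistableSetup (F := F) A (residue A) ι₀ Ft₀ ν₀} {e : ν₀} {ι : Type*}
  {L : AnnulusLevels A (tube S₀ e) ι} (Xb : BranchData S₀ e L) (i : ι)
  {Ω : Type w} [NormedField Ω] [IsUltrametricDist Ω] [CompleteSpace Ω]
  (j : K →+* Ω) (hj : ∀ c : K, ‖j c‖ ≤ 1 ↔ c ∈ A)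
  (hfull : LevelFullRes L i) (hcol : DenseNearOne j)
  {F₀ : Subfield F} {ϖ₀ : F₀} (C : CompPack.{0, u, 0, 0, 0, 0, w} S₀ F₀ ϖ₀)

/-! ### the expansions of the functions outside the vertical primes are units of the unit ball -/

include Xb in
/-- the `X`-expansion of a function of the level outside `p2` is a unit of the integral Amice ring
(the `hψ` of the lift of `toXBall ∘ levelExpand` to the completed local ring of `src e`) -/
theorem isUnit_toXBall_levelExpand {s : (L.level i).R} (hs : s ∉ (L.level i).p2) :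
    IsUnit (NodeRing.toXBall (thickK₁ L i j) (levelExpand L i j hj hfull hcol s)) := by
  have h1 := norm_toX_levelExpand_eq_one Xb i j hj hfull hcol hs
  have hne : NodeRing.toX ((levelExpand L i j hj hfull hcol s : NodeRing.NodeInt (thickK₁ L i j)) :
      NodeRing.NodeB (thickK₁ L i j)) ≠ 0 := by
    intro h0
    rw [h0, norm_zero] at h1
    exact zero_ne_one h1
  obtain ⟨y, hy, hyn⟩ := AmiceU.exists_inv_of_discrete (isDiscreteNorm_unifK₁ L i j hj) hne
  rw [h1, inv_one] at hyn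
  exact IsUnit.of_mul_eq_one (⟨y, hyn⟩ : AmiceU.ball (BAmice (constK₁ L i j))) (Subtype.ext hy)

include Xb in
/-- the `Y`-expansion of a function of the level outside `p1` is a unit of the integral Amice ring -/
theorem isUnit_toYBall_levelExpand {s : (L.level i).R} (hs : s ∉ (L.level i).p1) :
    IsUnit (NodeRing.toYBall (thickK₁ L i j) (levelExpand L i j hj hfull hcol s)) := by
  have h1 := norm_toY_levelExpand_eq_one Xb i j hj hfull hcol hs
  have hne : NodeRing.toY ((levelExpand L i j hj hfull hcol s : NodeRing.NodeInt (thickK₁ L i j)) :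
      NodeRing.NodeB (thickK₁ L i j)) ≠ 0 := by
    intro h0
    rw [h0, norm_zero] at h1
    exact zero_ne_one h1
  obtain ⟨y, hy, hyn⟩ := AmiceU.exists_inv_of_discrete (isDiscreteNorm_unifK₁ L i j hj) hne
  rw [h1, inv_one] at hyn
  exact IsUnit.of_mul_eq_one (⟨y, hyn⟩ : AmiceU.ball (BAmice (constK₁ L i j))) (Subtype.ext hy)

/-- **The inputs of the node part** at the level `i`: the function field `F₀` of the level, and the
two boundary maps of the completed components. -/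
structure NodeInput where
  /-- the uniformizer of `F₀` is the uniformizer of the level -/
  unif_eq : ((ϖ₀ : F₀) : F) = algebraMap K F (L.level i).ϖ
  /-- the level ring lies in `F₀` -/
  le_F₀ : ∀ y ∈ (L.level i).R, y ∈ F₀
  /-- `F₀` is the fraction field of the level ring -/
  frac : ∀ h : F₀, ∃ a b : (L.level i).R, b ≠ 0 ∧ (h : F) * (b : F) = (a : F)
  /-- the boundary map of the component `src e` -/
  b1 : C.Oh (S₀.src e) →+* BAmice (constK₁ L i j)
  /-- the boundary map of the component `tgt e` -/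
  b2 : C.Oh (S₀.tgt e) →+* BAmice (constK₁ L i j)
  norm_b1_le : ∀ y, ‖b1 y‖ ≤ 1
  norm_b2_le : ∀ y, ‖b2 y‖ ≤ 1
  /-- the square on the side of `src e` commutes on the level ring -/
  comm₁ : ∀ y : (L.level i).R,
    b1 (C.ofRatAt (S₀.src e) ⟨y, le_F₀ y y.2⟩ (Xb.le₁ i y y.2)) =
      NodeRing.toX ((levelExpand L i j hj hfull hcol y : NodeRing.NodeInt (thickK₁ L i j)) :
        NodeRing.NodeB (thickK₁ L i j))
  /-- the square on the side of `tgt e` commutes on the level ring -/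
  comm₂ : ∀ y : (L.level i).R,
    b2 (C.ofRatAt (S₀.tgt e) ⟨y, le_F₀ y y.2⟩ (Xb.le₂ i y y.2)) =
      NodeRing.toY ((levelExpand L i j hj hfull hcol y : NodeRing.NodeInt (thickK₁ L i j)) :
        NodeRing.NodeB (thickK₁ L i j))
  /-- the rational functions are dense in `C.Oh (src e)` modulo the uniformizer -/
  dense₁ : ∀ y : C.Oh (S₀.src e), ∃ (x : F₀) (hx : (x : F) ∈ S₀.O (S₀.src e))
    (y' : C.Oh (S₀.src e)), y = C.ofRatAt _ x hx + C.unif _ * y'
  /-- the rational functions are dense in `C.Oh (tgt e)` modulo the uniformizer -/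
  dense₂ : ∀ y : C.Oh (S₀.tgt e), ∃ (x : F₀) (hx : (x : F) ∈ S₀.O (S₀.tgt e))
    (y' : C.Oh (S₀.tgt e)), y = C.ofRatAt _ x hx + C.unif _ * y'

namespace NodeInput

variable {Xb i j hj hfull hcol C}
variable (I : NodeInput Xb i j hj hfull hcol C)

/-- the level ring inside `F₀` -/
def toF₀ : (L.level i).R →+* F₀ :=
  (L.level i).R.subtype.codRestrict F₀ (fun y => I.le_F₀ y y.2)

@[simp] theorem coe_toF₀ (y : (L.level i).R) : ((I.toF₀ y : F₀) : F) = (y : F) := rfl

/-- the level ring inside the completed valuation ring of the component `src e` -/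
def ℓ₁ : (L.level i).R →+* C.Oh (S₀.src e) :=
  ((C.emb (S₀.src e)).comp I.toF₀).codRestrict (C.Oh (S₀.src e))
    (fun y => (C.emb_mem_iff _ _).2 (Xb.le₁ i y y.2))

/-- the level ring inside the completed valuation ring of the component `tgt e` -/
def ℓ₂ : (L.level i).R →+* C.Oh (S₀.tgt e) :=
  ((C.emb (S₀.tgt e)).comp I.toF₀).codRestrict (C.Oh (S₀.tgt e))
    (fun y => (C.emb_mem_iff _ _).2 (Xb.le₂ i y y.2))

theorem ℓ₁_apply (y : (L.level i).R) :
    I.ℓ₁ y = C.ofRatAt (S₀.src e) ⟨y, I.le_F₀ y y.2⟩ (Xb.le₁ i y y.2) := rfl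

theorem ℓ₂_apply (y : (L.level i).R) :
    I.ℓ₂ y = C.ofRatAt (S₀.tgt e) ⟨y, I.le_F₀ y y.2⟩ (Xb.le₂ i y y.2) := rfl

theorem resh_ℓ₁ (y : (L.level i).R) : C.resh (S₀.src e) (I.ℓ₁ y) = Xb.red₁ i y :=
  C.resh_emb (S₀.src e) ⟨y, I.le_F₀ y y.2⟩ (Xb.le₁ i y y.2)

theorem resh_ℓ₂ (y : (L.level i).R) : C.resh (S₀.tgt e) (I.ℓ₂ y) = Xb.red₂ i y :=
  C.resh_emb (S₀.tgt e) ⟨y, I.le_F₀ y y.2⟩ (Xb.le₂ i y y.2)

theorem toF₀_πR : I.toF₀ (L.level i).πR = ϖ₀ := Subtype.ext I.unif_eq.symm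

theorem ℓ₁_πR : I.ℓ₁ (L.level i).πR = C.unif (S₀.src e) := by
  apply Subtype.ext
  show C.emb (S₀.src e) (I.toF₀ (L.level i).πR) = C.emb (S₀.src e) ϖ₀
  rw [I.toF₀_πR]

theorem ℓ₂_πR : I.ℓ₂ (L.level i).πR = C.unif (S₀.tgt e) := by
  apply Subtype.ext
  show C.emb (S₀.tgt e) (I.toF₀ (L.level i).πR) = C.emb (S₀.tgt e) ϖ₀
  rw [I.toF₀_πR]

theorem levelExpand_πR :
    levelExpand L i j hj hfull hcol (L.level i).πR =
      NodeRing.cInt (unifK₁ L i j) (isDiscreteNorm_unifK₁ L i j hj).2.1.le := by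
  rw [← constHom_unifW, levelExpand_const]
  rfl

theorem b1_unif :
    I.b1 (C.unif (S₀.src e)) = algebraMap (constK₁ L i j) (BAmice (constK₁ L i j)) (unifK₁ L i j) := by
  rw [← I.ℓ₁_πR, I.ℓ₁_apply, I.comm₁, levelExpand_πR, NodeRing.coe_cInt, AlgHom.commutes]

theorem b2_unif :
    I.b2 (C.unif (S₀.tgt e)) = algebraMap (constK₁ L i j) (BAmice (constK₁ L i j)) (unifK₁ L i j) := by
  rw [← I.ℓ₂_πR, I.ℓ₂_apply, I.comm₂, levelExpand_πR, NodeRing.coe_cInt, AlgHom.commutes]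

/-- `b1` with values in the unit ball -/
def b1Ball : C.Oh (S₀.src e) →+* AmiceU.ball (BAmice (constK₁ L i j)) :=
  I.b1.codRestrict (AmiceU.ball (BAmice (constK₁ L i j))) I.norm_b1_le

/-- `b2` with values in the unit ball -/
def b2Ball : C.Oh (S₀.tgt e) →+* AmiceU.ball (BAmice (constK₁ L i j)) :=
  I.b2.codRestrict (AmiceU.ball (BAmice (constK₁ L i j))) I.norm_b2_le

@[simp] theorem coe_b1Ball (y : C.Oh (S₀.src e)) :
    ((I.b1Ball y : AmiceU.ball (BAmice (constK₁ L i j))) : BAmice (constK₁ L i j)) = I.b1 y := rfl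

@[simp] theorem coe_b2Ball (y : C.Oh (S₀.tgt e)) :
    ((I.b2Ball y : AmiceU.ball (BAmice (constK₁ L i j))) : BAmice (constK₁ L i j)) = I.b2 y := rfl

/-- **helper22's `SideHyp` on the side of `src e`**: kernel `{‖toX g‖ < 1} = (ϖ, Y)`, coordinate
`X`. -/
theorem sideHyp₁ :
    SideHyp (S₀.s₁ e) (C.resh (S₀.src e)) (C.unif (S₀.src e)) I.ℓ₁
      (levelExpand L i j hj hfull hcol) (NodeRing.toXBall (thickK₁ L i j)) I.b1Ball
      (NodeRing.idealX (thickK₁ L i j))
      (NodeRing.XInt (thickK₁_ne_zero L i j hj) (norm_thickK₁_lt_one L i j hj).le) where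
  resh_unif := by
    rw [← I.ℓ₁_πR, I.resh_ℓ₁]
    exact Xb.red₁_piR i
  comm ρ := Subtype.ext (I.comm₁ ρ)
  prime := NodeRing.isPrime_idealX (isDiscreteNorm_unifK₁ L i j hj)
  X_notMem := NodeRing.XInt_notMem_idealX _ _
  am g := by
    rintro ⟨z, hz⟩
    have h1 := congrArg (fun x : AmiceU.ball (BAmice (constK₁ L i j)) =>
      (x : BAmice (constK₁ L i j))) hz
    simp only [NodeRing.coe_toXBall, Subring.coe_mul, coe_b1Ball, I.b1_unif] at h1
    rw [NodeRing.mem_idealX, h1, ← Algebra.smul_def, norm_smul]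
    calc ‖unifK₁ L i j‖ * ‖(z : BAmice (constK₁ L i j))‖ ≤ ‖unifK₁ L i j‖ * 1 :=
          mul_le_mul_of_nonneg_left z.2 (norm_nonneg _)
      _ = ‖unifK₁ L i j‖ := mul_one _
      _ < 1 := (isDiscreteNorm_unifK₁ L i j hj).2.1
  taylor ρ hρ := by
    rw [I.resh_ℓ₁] at hρ
    have hρ2 : ρ ∉ (L.level i).p2 := by
      rw [← ker_red₁ Xb i, RingHom.mem_ker]
      exact hρ
    obtain ⟨n, s, hs, -, hord, hmem⟩ := levelTaylorX Xb i j hj hfull hcol hρ2
    exact ⟨n, s, hs, by rw [I.resh_ℓ₁]; exact hord, hmem⟩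
  unit s hs g := NodeRing.sub_XInt_mul_notMem_idealX (thickK₁_ne_zero L i j hj)
    (norm_thickK₁_lt_one L i j hj) (hs.map _) g

/-- **helper22's `SideHyp` on the side of `tgt e`**: kernel `{‖toY g‖ < 1} = (ϖ, X)`, coordinate
`Y`. -/
theorem sideHyp₂ :
    SideHyp (S₀.s₂ e) (C.resh (S₀.tgt e)) (C.unif (S₀.tgt e)) I.ℓ₂
      (levelExpand L i j hj hfull hcol) (NodeRing.toYBall (thickK₁ L i j)) I.b2Ball
      (NodeRing.idealY (thickK₁ L i j))
      (NodeRing.YInt (thickK₁_ne_zero L i j hj) (norm_thickK₁_lt_one L i j hj).le) where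
  resh_unif := by
    rw [← I.ℓ₂_πR, I.resh_ℓ₂]
    exact Xb.red₂_piR i
  comm ρ := Subtype.ext (I.comm₂ ρ)
  prime := NodeRing.isPrime_idealY (isDiscreteNorm_unifK₁ L i j hj)
  X_notMem := NodeRing.YInt_notMem_idealY _ _
  am g := by
    rintro ⟨z, hz⟩
    have h1 := congrArg (fun x : AmiceU.ball (BAmice (constK₁ L i j)) =>
      (x : BAmice (constK₁ L i j))) hz
    simp only [NodeRing.coe_toYBall, Subring.coe_mul, coe_b2Ball, I.b2_unif] at h1
    rw [NodeRing.mem_idealY, h1, ← Algebra.smul_def, norm_smul]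
    calc ‖unifK₁ L i j‖ * ‖(z : BAmice (constK₁ L i j))‖ ≤ ‖unifK₁ L i j‖ * 1 :=
          mul_le_mul_of_nonneg_left z.2 (norm_nonneg _)
      _ = ‖unifK₁ L i j‖ := mul_one _
      _ < 1 := (isDiscreteNorm_unifK₁ L i j hj).2.1
  taylor ρ hρ := by
    rw [I.resh_ℓ₂] at hρ
    have hρ2 : ρ ∉ (L.level i).p1 := by
      rw [← ker_red₂ Xb i, RingHom.mem_ker]
      exact hρ
    obtain ⟨n, s, hs, -, hord, hmem⟩ := levelTaylorY Xb i j hj hfull hcol hρ2
    exact ⟨n, s, hs, by rw [I.resh_ℓ₂]; exact hord, hmem⟩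
  unit s hs g := NodeRing.sub_YInt_mul_notMem_idealY (thickK₁_ne_zero L i j hj)
    (norm_thickK₁_lt_one L i j hj) (hs.map _) g

/-! ### the density hypotheses and the matching at the node -/

theorem resh_ℓ₁_ne_zero {s : (L.level i).R} (hs : s ∉ (L.level i).p2) :
    C.resh (S₀.src e) (I.ℓ₁ s) ≠ 0 := by
  rw [I.resh_ℓ₁]
  intro h0
  exact hs (by rw [← ker_red₁ Xb i, RingHom.mem_ker]; exact h0)

theorem resh_ℓ₂_ne_zero {s : (L.level i).R} (hs : s ∉ (L.level i).p1) :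
    C.resh (S₀.tgt e) (I.ℓ₂ s) ≠ 0 := by
  rw [I.resh_ℓ₂]
  intro h0
  exact hs (by rw [← ker_red₂ Xb i, RingHom.mem_ker]; exact h0)

/-- the quotients of functions of the level are dense in `C.Oh (src e)` modulo the uniformizer -/
theorem hdens₁ (y : C.Oh (S₀.src e)) :
    ∃ α σ : (L.level i).R, C.resh (S₀.src e) (I.ℓ₁ σ) ≠ 0 ∧
      ∃ y' : C.Oh (S₀.src e), y * I.ℓ₁ σ = I.ℓ₁ α + C.unif (S₀.src e) * y' := by
  obtain ⟨x, hx, y'', rfl⟩ := I.dense₁ y
  obtain ⟨a, b, hb, hab⟩ := I.frac x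
  obtain ⟨a', s, hs, has⟩ := GaussLoc.exists_mul_eq_of_mem_src Xb i hx hb hab
  refine ⟨a', s, I.resh_ℓ₁_ne_zero hs, y'' * I.ℓ₁ s, ?_⟩
  have e1 : C.ofRatAt (S₀.src e) x hx * I.ℓ₁ s = I.ℓ₁ a' := by
    apply Subtype.ext
    show C.emb (S₀.src e) x * C.emb (S₀.src e) (I.toF₀ s) = C.emb (S₀.src e) (I.toF₀ a')
    rw [← map_mul]
    congr 1
    exact Subtype.ext has
  rw [add_mul, e1]
  ring

/-- the quotients of functions of the level are dense in `C.Oh (tgt e)` modulo the uniformizer -/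
theorem hdens₂ (y : C.Oh (S₀.tgt e)) :
    ∃ α σ : (L.level i).R, C.resh (S₀.tgt e) (I.ℓ₂ σ) ≠ 0 ∧
      ∃ y' : C.Oh (S₀.tgt e), y * I.ℓ₂ σ = I.ℓ₂ α + C.unif (S₀.tgt e) * y' := by
  obtain ⟨x, hx, y'', rfl⟩ := I.dense₂ y
  obtain ⟨a, b, hb, hab⟩ := I.frac x
  obtain ⟨a', s, hs, has⟩ := GaussLoc.exists_mul_eq_of_mem_tgt Xb i hx hb hab
  refine ⟨a', s, I.resh_ℓ₂_ne_zero hs, y'' * I.ℓ₂ s, ?_⟩
  have e1 : C.ofRatAt (S₀.tgt e) x hx * I.ℓ₂ s = I.ℓ₂ a' := by
    apply Subtype.ext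
    show C.emb (S₀.tgt e) x * C.emb (S₀.tgt e) (I.toF₀ s) = C.emb (S₀.tgt e) (I.toF₀ a')
    rw [← map_mul]
    congr 1
    exact Subtype.ext has
  rw [add_mul, e1]
  ring

include I in
/-- the expansions of the functions of the level are dense in the integral node ring, in the form
consumed by `B4.exists_isValueAt_of_expand_two` -/
theorem hdens (g : NodeRing.NodeInt (thickK₁ L i j)) (N : ℕ) :
    ∃ (ρ : (L.level i).R) (g' g'' : NodeRing.NodeInt (thickK₁ L i j)),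
      g - levelExpand L i j hj hfull hcol ρ -
          NodeRing.XInt (thickK₁_ne_zero L i j hj) (norm_thickK₁_lt_one L i j hj).le ^ N * g' ∈
        NodeRing.idealX (thickK₁ L i j) ∧
      g - levelExpand L i j hj hfull hcol ρ -
          NodeRing.YInt (thickK₁_ne_zero L i j hj) (norm_thickK₁_lt_one L i j hj).le ^ N * g'' ∈
        NodeRing.idealY (thickK₁ L i j) := by
  obtain ⟨ρ, hρ⟩ := exists_levelExpand_approx L i j hj hfull hcol g N
  obtain ⟨g', hg'⟩ := exists_pow_mul_of_mem_pow_right hρ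
  obtain ⟨g'', hg''⟩ := exists_pow_mul_of_mem_pow_left hρ
  rw [levelTarget_span_Y, levelTarget_X] at hg'
  rw [levelTarget_span_X, levelTarget_Y] at hg''
  exact ⟨ρ, g', g'', hg', hg''⟩

/-- main's `node_match` for the functions of the level -/
theorem hmatch (ρ : (L.level i).R) :
    ∃ c : ResidueField A, IsValueAt (S₀.s₁ e) (C.resh (S₀.src e) (I.ℓ₁ ρ)) c ∧
      IsValueAt (S₀.s₂ e) (C.resh (S₀.tgt e) (I.ℓ₂ ρ)) c := by
  obtain ⟨c, h1, h2⟩ := S₀.node_match e ρ (Xb.le₁ i ρ ρ.2) (Xb.le₂ i ρ ρ.2)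
    (fun P hP => (nodeLevel_integralAt (L.level i) (P := P) hP).ord_nonneg ρ.2)
  refine ⟨c, ?_, ?_⟩
  · rw [I.resh_ℓ₁]
    exact h1
  · rw [I.resh_ℓ₂]
    exact h2

/-! ### the node part -/

/-- **The node part of the expansion package at the node `e`** (level `i`): node ring
`NodeB (thickK₁ L i j)`, boundary rings `BAmice (constK₁ L i j)`, `a1 = toX`, `a2 = toY`. -/
def nodePart : NodePart C e where
  R := NodeRing.NodeB (thickK₁ L i j)
  B1 := BAmice (constK₁ L i j)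
  B2 := BAmice (constK₁ L i j)
  a1 := (NodeRing.toX : NodeRing.NodeB (thickK₁ L i j) →ₐ[constK₁ L i j] _).toRingHom
  a2 := (NodeRing.toY : NodeRing.NodeB (thickK₁ L i j) →ₐ[constK₁ L i j] _).toRingHom
  b1 := I.b1
  b2 := I.b2
  node_rat h h₁ h₂ hT := by
    obtain ⟨a, b, hb, hab⟩ := I.frac h
    have hmem : (h : F) ∈ (L.level i).R :=
      mem_level_of_regular Xb i hb hab h₁ h₂ (fun P hP => hT P hP)
    refine ⟨((levelExpand L i j hj hfull hcol ⟨(h : F), hmem⟩ :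
      NodeRing.NodeInt (thickK₁ L i j)) : NodeRing.NodeB (thickK₁ L i j)), ?_, ?_⟩
    · exact (I.comm₁ ⟨(h : F), hmem⟩).symm
    · exact (I.comm₂ ⟨(h : F), hmem⟩).symm
  node_red r y₁ y₂ h1 h2 := by
    have h1' : NodeRing.toX r = I.b1 y₁ := h1
    have h2' : NodeRing.toY r = I.b2 y₂ := h2
    have hr : r ∈ NodeRing.nodeInt (thickK₁ L i j) :=
      NodeRing.mem_nodeInt_iff.2 ⟨by rw [h1']; exact I.norm_b1_le y₁,
        by rw [h2']; exact I.norm_b2_le y₂⟩
    exact exists_isValueAt_of_expand_two I.sideHyp₁ I.sideHyp₂ I.hdens₁ I.hdens₂ I.hdens I.hmatch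
      (r := (⟨r, hr⟩ : NodeRing.NodeInt (thickK₁ L i j))) (y₁ := y₁) (y₂ := y₂)
      (Subtype.ext h1') (Subtype.ext h2')
  node_div r y₁ y₂ h1 h2 := by
    have h1' : NodeRing.toX r = I.b1 (C.unif (S₀.src e) * y₁) := h1
    have h2' : NodeRing.toY r = I.b2 (C.unif (S₀.tgt e) * y₂) := h2
    have hne : unifK₁ L i j ≠ 0 := by
      intro h0
      have h := (isDiscreteNorm_unifK₁ L i j hj).1
      rw [h0, norm_zero] at h
      exact lt_irrefl _ h
    refine ⟨(unifK₁ L i j)⁻¹ • r, ?_, ?_⟩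
    · show NodeRing.toX ((unifK₁ L i j)⁻¹ • r) = I.b1 y₁
      rw [map_smul, h1', map_mul, I.b1_unif, ← Algebra.smul_def, smul_smul, inv_mul_cancel₀ hne,
        one_smul]
    · show NodeRing.toY ((unifK₁ L i j)⁻¹ • r) = I.b2 y₂
      rw [map_smul, h2', map_mul, I.b2_unif, ← Algebra.smul_def, smul_smul, inv_mul_cancel₀ hne,
        one_smul]

end NodeInput

end Fermat.Agent.FF3.ExpandBR
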