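/-
PROGRAMME I (S33, p-new half), block B3 (expansion layer), node §4a, part 4 (helper20):
FUNCTORIALITY IN THE LEVEL (`nodeExpand_mono`) and THE UNIT FORM of a function without zeros and
poles on the tube (`exists_unit_form`, from the class-group lemma `NodeLevel.n2` of main).

* `nodeExpand_mono` : for two levels `R_i ≤ R_l` and a homomorphism of targets `β : B_i →+* B_l`
  compatible with the evaluations, `β (nodeExpand_i y) = nodeExpand_l y` (uniqueness of the
  expansion);
* `exists_unit_form` : `z ∈ Frac R_i` with `ord_P z = 0` for all places `P` of the tube is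
  `d * u ^ β * ε`, `d` a nonzero constant, `ε` a unit of `R_i`;
* `nodeExpand_unit_form` : the corresponding identity between the expansions of a numerator and a
  denominator of `z`.
-/
import Mathlib
import Fermat.Agent.FF3.ExpandBR.Frame

set_option autoImplicit false

noncomputable section

namespace Fermat.Agent.FF3.ExpandBR

open AlgebraicCurve IsLocalRing Fermat.Agent.Red Fermat.Agent.BR.Centre Fermat.Agent.BR.S0

variable {K F : Type*} [Field K] [Field F] [Algebra K F]
  {A : ValuationSubring K} {T : Set (Place K F)} {ι : Type*}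
  (L : AnnulusLevels A T ι)

/-! ### functoriality in the level -/

section Mono

variable (i l : ι) (hR : (L.level i).R ≤ (L.level l).R) (hK : (L.level i).K' ≤ (L.level l).K')

include hK in
theorem levelConst_le : levelConst L i ≤ levelConst L l := fun _ hc =>
  (mem_levelConst L l).mpr ⟨((mem_levelConst L i).mp hc).1, hK ((mem_levelConst L i).mp hc).2⟩

variable {Ω : Type*} [NormedField Ω] [IsUltrametricDist Ω] (j : K →+* Ω)
  (hj : ∀ c : K, ‖j c‖ ≤ 1 ↔ c ∈ A)
  {Bi Bl : Type*} [CommRing Bi] [CommRing Bl]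
  (Tgi : Expand.NodeTargetEv (levelConst L i) (unifW L i) (thickW L i) Ω (constΩ L i j) Bi)
  (Tgl : Expand.NodeTargetEv (levelConst L l) (unifW L l) (thickW L l) Ω (constΩ L l j) Bl)
  (hfulli : LevelFullRes L i) (hfulll : LevelFullRes L l) (hcol : DenseNearOne j)

/-- **Functoriality in the level**: a homomorphism of targets `β : B_i →+* B_l` which commutes
with the evaluations at the points of the annulus commutes with the expansions. -/
theorem nodeExpand_mono (β : Bi →+* Bl)
    (hβ : ∀ (a : Ω) (h1 : ‖j L.thick‖ < ‖a‖) (h2 : ‖a‖ < 1) (b : Bi),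
      Tgl.evalAt a h1 h2 (β b) = Tgi.evalAt a h1 h2 b)
    (y : (L.level i).R) :
    β (nodeExpand L i j hj Tgi hfulli hcol y) =
      nodeExpand L l j hj Tgl hfulll hcol (Subring.inclusion hR y) := by
  symm
  refine nodeExpand_eq L l j hj Tgl hfulll hcol fun P => ?_
  have h := evalAt_nodeExpand L i j hj Tgi hfulli hcol P y
  show Tgl.evalAt _ _ _ (β _) = _
  rw [hβ]
  exact h

end Mono

/-! ### the unit form -/

section Unit

variable (i : ι)

/-- **The unit form**: a function of the fraction field of the level without zeros and poles on the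
tube is `d * u ^ β * ε` with `d` a nonzero constant and `ε` a unit of the level. -/
theorem exists_unit_form {z : F} (hz : z ≠ 0)
    (hfrac : ∃ a b : (L.level i).R, b ≠ 0 ∧ z * (b : F) = (a : F))
    (hord : ∀ P ∈ T, P.ord z = 0) :
    ∃ (d : K) (β : ℤ) (ε : (L.level i).R), d ≠ 0 ∧ IsUnit ε ∧
      z = algebraMap K F d * L.u ^ β * (ε : F) := by
  obtain ⟨d, β, ε, hd, hε, hεi, hzε⟩ := (L.level i).n2 z hz hfrac
    (fun Q hQ hht hπ => (L.level i).unitAt_of_ord_eq_zero hz hfrac hord Q hQ hht hπ)
  have hε0 : ε ≠ 0 := by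
    intro h0
    rw [h0, mul_zero] at hzε
    exact hz hzε
  refine ⟨d, β, ⟨ε, hε⟩, hd, ?_, hzε⟩
  refine IsUnit.of_mul_eq_one ⟨ε⁻¹, hεi⟩ ?_
  exact Subtype.ext (mul_inv_cancel₀ hε0)

variable {Ω : Type*} [NormedField Ω] [IsUltrametricDist Ω] (j : K →+* Ω)
  (hj : ∀ c : K, ‖j c‖ ≤ 1 ↔ c ∈ A) {B : Type*} [CommRing B]
  (Tg : Expand.NodeTargetEv (levelConst L i) (unifW L i) (thickW L i) Ω (constΩ L i j) B)
  (hfull : LevelFullRes L i) (hcol : DenseNearOne j)

/-- **The unit form of the expansions**: if `z * b = a`, `z = d * u ^ (n - m) * ε` and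
`d * d₂ = d₁` with `d₁, d₂ ∈ A ∩ K'`, then
`d₂ * X ^ m * expand a = d₁ * X ^ n * expand ε * expand b`. -/
theorem nodeExpand_unit_form {z : F} {a b ε : (L.level i).R} (hab : z * (b : F) = (a : F))
    {d : K} {n m : ℕ} (hzε : z = algebraMap K F d * L.u ^ ((n : ℤ) - (m : ℤ)) * (ε : F))
    {d₁ d₂ : levelConst L i} (hd : d * (d₂ : K) = (d₁ : K)) :
    Tg.c d₂ * Tg.X ^ m * nodeExpand L i j hj Tg hfull hcol a =
      Tg.c d₁ * Tg.X ^ n * nodeExpand L i j hj Tg hfull hcol ε *
        nodeExpand L i j hj Tg hfull hcol b := by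
  have hu0 : L.u ≠ 0 := L.u_ne_zero
  have key : constHom L i d₂ * uR L i ^ m * a = constHom L i d₁ * uR L i ^ n * ε * b := by
    apply Subtype.ext
    show algebraMap K F (d₂ : K) * L.u ^ m * (a : F) =
      algebraMap K F (d₁ : K) * L.u ^ n * (ε : F) * (b : F)
    rw [← hab, hzε, ← hd, map_mul, zpow_sub₀ hu0, zpow_natCast, zpow_natCast]
    field_simp
  have h := congrArg (nodeExpand L i j hj Tg hfull hcol) key
  simp only [map_mul, map_pow, nodeExpand_const, nodeExpand_u] at h
  exact h

end Unit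

end Fermat.Agent.FF3.ExpandBR
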