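/-
PROGRAMME I (S33, p-new half), block B3 (expansion layer), node §4a, part 5 (helper20):
THE HYPOTHESES OF THE EXPANSION FOR THE MODULAR TOWER.

* `denseNearOne_of_isAlgClosed` : over an algebraically closed `K` with a nontrivial valuation the
  value group is dense near `1` (`DenseNearOne j`);
* `levelFullRes_levelsOfExists` : `LevelFullRes` for the levels chosen from a `CrossingFamily`
  whose models contain constants with full residue field;
* `levelFullRes_modular_final` : `LevelFullRes` for every level `S : Finset ℚ̄` of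
  `AnnulusInstFinal.annulusLevels_modular_final` (from `Levels.fullRes_WS`, `Levels.const_mem_CS`).

With these, `nodeExpand`, `nodeExpand_injective`, `nodeExpand_mono`, `gaussX`, `gaussY`, `taylorX`,
`taylorY`, `exists_unit_form` apply to `L := annulusLevels_modular_final B hB hqM hne e`,
`Xb := branchData_modular_final B hB hqM hne e` for every `(Ω, j)` with `‖j c‖ ≤ 1 ↔ c ∈ B` and
every target.
-/
import Mathlib
import Fermat.Agent.BR.Inst.AnnulusInstFinal
import Fermat.Agent.FF3.ExpandBR.Branch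
import Fermat.Agent.FF3.ExpandBR.Functor

set_option autoImplicit false

noncomputable section

namespace Fermat.Agent.FF3.ExpandBR

open AlgebraicCurve IsLocalRing Fermat.Agent.Red Fermat.Agent.BR.Centre Fermat.Agent.BR.S0
  Fermat.Agent.BR.S0.CrossingFamilyAssembly

/-! ### density of the value group -/

section Dense

variable {K : Type*} [Field K] [IsAlgClosed K] {Ω : Type*} [NormedField Ω] (j : K →+* Ω)

theorem denseNearOne_of_isAlgClosed (h : ∃ c : K, c ≠ 0 ∧ ‖j c‖ < 1) : DenseNearOne j := by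
  obtain ⟨c₀, hc₀, hlt⟩ := h
  have hr0 : 0 < ‖j c₀‖ := norm_pos_iff.mpr ((map_ne_zero j).mpr hc₀)
  intro ρ hρ
  -- a power of `max ρ 0` below `‖j c₀‖`
  set ρ' : ℝ := max ρ 0 with hρ'
  have hρ'0 : 0 ≤ ρ' := le_max_right _ _
  have hρ'1 : ρ' < 1 := max_lt hρ zero_lt_one
  obtain ⟨n, hn⟩ := exists_pow_lt_of_lt_one hr0 hρ'1
  have hn0 : n ≠ 0 := by
    rintro rfl
    rw [pow_zero] at hn
    exact absurd (hlt.trans hn) (lt_irrefl _)
  obtain ⟨c, hc⟩ := IsAlgClosed.exists_pow_nat_eq c₀ (Nat.pos_of_ne_zero hn0)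
  have hnorm : ‖j c‖ ^ n = ‖j c₀‖ := by rw [← norm_pow, ← map_pow, hc]
  refine ⟨c, ?_, ?_⟩
  · refine (le_max_left ρ 0).trans_lt ?_
    by_contra hle
    rw [not_lt] at hle
    have := pow_le_pow_left₀ (norm_nonneg (j c)) hle n
    rw [hnorm] at this
    exact absurd hn (not_lt.mpr this)
  · by_contra hge
    rw [not_lt] at hge
    have := one_le_pow₀ hge (n := n)
    rw [hnorm] at this
    exact absurd hlt (not_lt.mpr this)

end Dense

/-! ### full residue field of the constants of the levels -/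

section Levels

variable {K F : Type*} [Field K] [Field F] [Algebra K F] {A : ValuationSubring K}
  {k' : Type*} [Field k'] {Ft₁ Ft₂ : Type*} [Field Ft₁] [Algebra k' Ft₁] [Field Ft₂]
  [Algebra k' Ft₂] {π' : A →+* k'} {O₁ O₂ : ValuationSubring F} {res₁ : O₁ →+* Ft₁}
  {res₂ : O₂ →+* Ft₂} {Q₁ : Place k' Ft₁} {Q₂ : Place k' Ft₂} {T : Set (Place K F)}
  {ι : Type*} {C : ι → Subring F} {ϖ : ι → K} {i₀ : ι}

theorem levelFullRes_levelsOfExists
    (h : ∃ (u v ε₀ : F) (thick : K),
      CrossingFamily A π' O₁ O₂ res₁ res₂ Q₁ Q₂ T C ϖ i₀ u v ε₀ thick)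
    (hfull : ∀ i, ∀ (c : K) (hc : c ∈ A), ∃ (c' : K) (hc' : c' ∈ A),
      algebraMap K F c' ∈ C i ∧ residue A ⟨c', hc'⟩ = residue A ⟨c, hc⟩) (i : ι) :
    LevelFullRes (levelsOfExists h) i :=
  (Classical.choose_spec (Classical.choose_spec (Classical.choose_spec
    (Classical.choose_spec h)))).annulusLevelsSwap_fullRes hfull i

end Levels

/-! ### the modular tower -/

section Modular

open ModularCurve Fermat.Agent.X0 Fermat.Agent.BR.S0.RedModular Fermat.Agent.BR.S0.RedHyp
  Fermat.Agent.BR.S0.PointDict Fermat.Agent.BR.Inst.AnnulusInstFinal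
  Fermat.Agent.BR.Inst.Levels Fermat.Agent.BR.Inst.NodeInst

local notation "Kb" => AlgebraicClosure ℚ

variable {M q : ℕ} [NeZero M] [hq : Fact q.Prime]
variable (B : ValuationSubring Kb) (hB : B.LiesOverPrime q) (hqM : ¬ q ∣ M)

include hB in
/-- the constants of the models `CS (M * q) q (baseFin M q B) S` have full residue field -/
theorem fullRes_CS (S : Finset Kb) (c : Kb) (hc : c ∈ B) :
    ∃ (c' : Kb) (hc' : c' ∈ B), algebraMap Kb (Fb (M * q)) c' ∈ CS (M * q) q (baseFin M q B) S ∧
      residue B ⟨c', hc'⟩ = residue B ⟨c, hc⟩ := by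
  obtain ⟨a', ha', hd⟩ := fullRes_WS B hq.out hB S c hc
  refine ⟨a', (mem_WS_iff.mp ha').1, const_mem_CS (baseFamily_fin (M * q) B hq.out hB) ha', ?_⟩
  have h0 : residue B (⟨c, hc⟩ - ⟨a', (mem_WS_iff.mp ha').1⟩) = 0 := by
    rw [residue_eq_zero_iff]
    obtain ⟨hmem, hm⟩ := (ValuationSubring.mem_nonunits_iff_exists_mem_maximalIdeal).mp hd
    exact hm
  rw [map_sub, sub_eq_zero] at h0
  exact h0.symm

set_option maxHeartbeats 4000000 in
/-- **`LevelFullRes` for every level of the tube of a crossing of the modular tower.** -/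
theorem levelFullRes_modular_final [IsAlgClosed (ResidueField B)]
    (hne : Nonempty (Crossing (chartDataModular B hB hqM)))
    (e : Crossing (chartDataModular B hB hqM)) (S : Finset Kb) :
    LevelFullRes (annulusLevels_modular_final B hB hqM hne e) S :=
  levelFullRes_levelsOfExists _ (fun S c hc => fullRes_CS B hB S c hc) S

end Modular

end Fermat.Agent.FF3.ExpandBR
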