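/-
PROGRAMME I (S33, p-new half), T3 node part (N), the main-dialect inputs on the modular tower
(helper20).

`L := annulusLevels_modular_final B hB hqM hne e`, level `S : Finset Kb`, function field of the level
`F₀ := FS (M * q) q S = modelField (M * q) (KS q S)` (`= FKs (M * q) (KS q S)`,
`BR3/HeckePolyDescent.modelField_eq_FKs`), uniformizer `unif B hq hB S`.

* `level_R_eq_loc` : the level ring is the local ring of the crossing model `CS (M q) q baseFin S`;
* `level_le_FS` : `R_S ⊆ F_S`;  `level_frac` : `F_S = Frac R_S`;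
* `level_unif_eq` : `ϖ_S = unif B hq hB S`;  `unifFS` : the uniformizer as an element of `F_S`;
  these are the fields `le_F₀`, `frac`, `unif_eq` of `NodeInput` (`FF3/ExpandBR/Part`).
-/
import Mathlib
import Fermat.Agent.FF3.ExpandBR.Modular
import Fermat.Agent.BR.S0.GeomFinal

set_option autoImplicit false

noncomputable section

namespace Fermat.Agent.FF3.ExpandBR

open AlgebraicCurve ModularCurve IsLocalRing Fermat.Agent.Red Fermat.Agent.X0
  Fermat.Agent.BR.Centre Fermat.Agent.BR.S0 Fermat.Agent.BR.S0.RedModular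
  Fermat.Agent.BR.S0.RedHyp Fermat.Agent.BR.S0.PointDict Fermat.Agent.BR.Inst.AnnulusInstFinal
  Fermat.Agent.BR.Inst.Levels Fermat.Agent.BR.Inst.NodeInst Fermat.Agent.BR.Inst.LocSub

local notation "Kb" => AlgebraicClosure ℚ

variable {M q : ℕ} [NeZero M] [hq : Fact q.Prime]
variable (B : ValuationSubring Kb) (hB : B.LiesOverPrime q) (hqM : ¬ q ∣ M)
variable [IsAlgClosed (ResidueField B)]
variable (hne : Nonempty (Crossing (chartDataModular B hB hqM)))
variable (e : Crossing (chartDataModular B hB hqM))

set_option maxHeartbeats 4000000 in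
/-- the local ring of level `S` is the local ring of the crossing model -/
theorem level_R_eq_loc (S : Finset Kb) :
    ((annulusLevels_modular_final B hB hqM hne e).level S).R =
      (Fermat.Agent.BR.Inst.NodeInstFinal.crossingModel_modular_final B hB hqM
        (atlasHyp_modular B hB hqM (Fermat.Agent.BR.S0.GeomFinal.geomInputs_modular_final B hB hqM))
        S e).loc := rfl

set_option maxHeartbeats 4000000 in
/-- the uniformizer of level `S` -/
theorem level_unif_eq (S : Finset Kb) :
    ((annulusLevels_modular_final B hB hqM hne e).level S).ϖ = unif B hq.out hB S := rfl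

/-- **`R_S ⊆ F_S`** -/
theorem level_le_FS (S : Finset Kb) :
    ∀ y ∈ ((annulusLevels_modular_final B hB hqM hne e).level S).R, y ∈ FS (M * q) q S := by
  intro y hy
  rw [level_R_eq_loc] at hy
  obtain ⟨a, b, hb, hab⟩ := (CrossingModel.mem_loc_iff _).mp hy
  have hb0 : (b : Fb (M * q)) ≠ 0 := coe_ne_zero_of_notMem hb
  have e1 : y = (a : Fb (M * q)) * (b : Fb (M * q))⁻¹ := by
    rw [← hab, mul_assoc, mul_inv_cancel₀ hb0, mul_one]
  rw [e1]
  exact (FS (M * q) q S).mul_mem (CS_le_FS S a.2) ((FS (M * q) q S).inv_mem (CS_le_FS S b.2))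

/-- **`F_S = Frac R_S`** -/
theorem level_frac (S : Finset Kb) (h : FS (M * q) q S) :
    ∃ a b : ((annulusLevels_modular_final B hB hqM hne e).level S).R, b ≠ 0 ∧
      (h : Fb (M * q)) * (b : Fb (M * q)) = (a : Fb (M * q)) := by
  obtain ⟨a, b, hb0, hab⟩ := (baseFamily_fin (M * q) B hq.out hB).frac S h h.2
  have hle : CS (M * q) q (baseFin M q B) S ≤
      ((annulusLevels_modular_final B hB hqM hne e).level S).R := by
    rw [level_R_eq_loc]
    exact CrossingModel.le_loc _
  refine ⟨⟨a, hle a.2⟩, ⟨b, hle b.2⟩, ?_, hab⟩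
  intro h0
  apply hb0
  apply Subtype.ext
  exact congrArg (fun z : ((annulusLevels_modular_final B hB hqM hne e).level S).R =>
    (z : Fb (M * q))) h0

/-- the uniformizer of level `S`, as an element of the function field of the level -/
def unifFS (S : Finset Kb) : FS (M * q) q S :=
  ⟨algebraMap Kb (Fb (M * q)) (unif B hq.out hB S),
    const_mem_FS (M * q) q (unif_mem_KS B hq.out hB S)⟩

theorem coe_unifFS (S : Finset Kb) :
    ((unifFS (M := M) B hB S : FS (M * q) q S) : Fb (M * q)) =
      algebraMap Kb (Fb (M * q))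
        ((annulusLevels_modular_final B hB hqM hne e).level S).ϖ := by
  rw [level_unif_eq]
  rfl

end Fermat.Agent.FF3.ExpandBR
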