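/-
PROGRAMME I (S33, p-new half), block B3 (expansion layer), node §4a, part 7 (helper20):
THE COMPLETED CONSTANTS OF A LEVEL.

`L : AnnulusLevels A T ι`, one level `i`, `j : K →+* Ω` with `‖j c‖ ≤ 1 ↔ c ∈ A`.

* `constField L i j : Subfield Ω` : the image of the constant field `K'_i` of the level;
* `isDiscNormed_constField` : it is discretely normed with uniformizer `j ϖ_i` (helper26's
  `Wc.IsDiscNormed`), hence `Wc.Wc (constField L i j)` is a complete DVR with uniformizer `j ϖ_i`
  (`FF3/Wc`);
* `constWc : levelConst L i →+* Wc.Wc (constField L i j)` : the constants of the level inside the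
  completed constants, `coe_constWc`;
* `norm_lt_norm_Kc` : the discreteness in the form consumed by the identity theorem of the node
  ring (`FF3/NodeEval/Identity`): `‖x‖ < ‖y‖ → ‖x‖ ≤ ‖j ϖ‖ * ‖y‖` on the closure.
-/
import Mathlib
import Fermat.Agent.FF3.ExpandBR.Frame
import Fermat.Agent.FF3.Wc.Main

set_option autoImplicit false

noncomputable section

namespace Fermat.Agent.FF3.ExpandBR

open AlgebraicCurve IsLocalRing Fermat.Agent.Red Fermat.Agent.BR.Centre Fermat.Agent.BR.S0
  Fermat.Agent.FF3

variable {K F : Type*} [Field K] [Field F] [Algebra K F]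
  {A : ValuationSubring K} {T : Set (Place K F)} {ι : Type*}
  (L : AnnulusLevels A T ι) (i : ι)
  {Ω : Type*} [NormedField Ω] (j : K →+* Ω) (hj : ∀ c : K, ‖j c‖ ≤ 1 ↔ c ∈ A)

/-- The image in `Ω` of the constant field of the level. -/
def constField : Subfield Ω := (L.level i).K'.map j

theorem mem_constField {x : Ω} : x ∈ constField L i j ↔ ∃ c ∈ (L.level i).K', j c = x :=
  Subfield.mem_map

theorem map_mem_constField {c : K} (hc : c ∈ (L.level i).K') : j c ∈ constField L i j :=
  (mem_constField L i j).mpr ⟨c, hc, rfl⟩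

include hj in
/-- **The constant field of a level is discretely normed**, with uniformizer `j ϖ`. -/
theorem isDiscNormed_constField : Wc.IsDiscNormed (constField L i j) (j (L.level i).ϖ) where
  mem := map_mem_constField L i j (L.level i).unif_mem
  pos := norm_pos_iff.mpr ((map_ne_zero j).mpr (L.level i).unif_ne)
  lt_one := (norm_lt_one_iff j hj _).mpr (L.level i).unif_lt
  le_of_lt_one := by
    rintro x hx hx1
    obtain ⟨c, hc, rfl⟩ := (mem_constField L i j).mp hx
    have h1 := (L.level i).unif_max c hc ((norm_lt_one_iff j hj c).mp hx1)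
    by_contra hlt
    rw [not_le, norm_lt_norm_iff j hj _ ?_] at hlt
    · exact absurd h1 (not_le.mpr hlt)
    · rintro rfl
      rw [map_zero, norm_zero] at hlt
      exact absurd hlt (not_lt.mpr (norm_nonneg _))

variable [IsUltrametricDist Ω]

include hj in
/-- discreteness of the closure of the constant field, in ratio form -/
theorem norm_le_mul_of_lt_Kc {x y : Ω} (hx : x ∈ Wc.Kc (constField L i j))
    (hy : y ∈ Wc.Kc (constField L i j)) (hxy : ‖x‖ < ‖y‖) :
    ‖x‖ ≤ ‖j (L.level i).ϖ‖ * ‖y‖ := by
  have hy0 : y ≠ 0 := by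
    rintro rfl
    rw [norm_zero] at hxy
    exact absurd hxy (not_lt.mpr (norm_nonneg _))
  have hypos : 0 < ‖y‖ := norm_pos_iff.mpr hy0
  have hq : x * y⁻¹ ∈ Wc.Kc (constField L i j) :=
    (Wc.Kc (constField L i j)).mul_mem hx ((Wc.Kc (constField L i j)).inv_mem hy)
  have hq1 : ‖x * y⁻¹‖ < 1 := by
    rw [norm_mul, norm_inv, ← div_eq_mul_inv, div_lt_one hypos]
    exact hxy
  have h := (isDiscNormed_constField L i j hj).closure.le_of_lt_one _ hq hq1
  rw [norm_mul, norm_inv, ← div_eq_mul_inv, div_le_iff₀ hypos] at h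
  exact h

include hj in
/-- **The constants of the level inside the completed constants** `Wc (constField L i j)`. -/
def constWc : levelConst L i →+* Wc.Wc (constField L i j) :=
  (constΩ L i j).codRestrict (Wc.Wc (constField L i j)) (fun c =>
    ⟨Wc.le_Kc _ (map_mem_constField L i j ((mem_levelConst L i).mp c.2).2),
      (hj _).mpr ((mem_levelConst L i).mp c.2).1⟩)

@[simp] theorem coe_constWc (c : levelConst L i) :
    ((constWc L i j hj c : Wc.Wc (constField L i j)) : Ω) = j (c : K) := rfl

theorem constWc_unifW :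
    constWc L i j hj (unifW L i) = (isDiscNormed_constField L i j hj).unifC := rfl

include hj in
theorem norm_thick_pos : 0 < ‖j L.thick‖ :=
  norm_pos_iff.mpr ((map_ne_zero j).mpr L.thick_ne)

include hj in
theorem norm_thick_lt_one : ‖j L.thick‖ < 1 := (norm_lt_one_iff j hj _).mpr L.thick_lt

theorem thick_mem_Kc : j L.thick ∈ Wc.Kc (constField L i j) :=
  Wc.le_Kc _ (map_mem_constField L i j (L.level i).thick_mem)

end Fermat.Agent.FF3.ExpandBR
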